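import Mathlib

/-!
# P-CFT, module A-CNT2 (part 1): thickenings of Lipschitz images of cubes

In `ι → ℝ` (sup norm), the `ε`-thickening of the image of the unit cube of `T → ℝ` under a
Lipschitz map has volume `O(ε)` as soon as `card T + 1 ≤ card ι`.
-/

set_option autoImplicit false

open MeasureTheory Metric Set

namespace Fermat.Agent.S14.ACNT2

/-- Grid approximation in the unit cube: every point of the unit cube of `T → ℝ` is within
`1 / n` of a grid point `a / n`, `a : T → Fin (n + 1)`. -/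
theorem exists_grid_point {T : Type*} [Fintype T] {n : ℕ} (hn : 0 < n) {x : T → ℝ}
    (hx : x ∈ Icc (0 : T → ℝ) 1) :
    ∃ a : T → Fin (n + 1), dist x (fun t => ((a t : ℕ) : ℝ) / n) ≤ 1 / n := by
  have hn' : (0 : ℝ) < n := Nat.cast_pos.mpr hn
  have hx0 : ∀ t, 0 ≤ x t := fun t => hx.1 t
  have hx1 : ∀ t, x t ≤ 1 := fun t => hx.2 t
  have hfl : ∀ t, ⌊x t * n⌋₊ < n + 1 := by
    intro t
    have h1 : x t * n ≤ n := by
      calc x t * n ≤ 1 * n := mul_le_mul_of_nonneg_right (hx1 t) hn'.le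
        _ = n := one_mul _
    have : ⌊x t * n⌋₊ ≤ n := by
      have := Nat.floor_le_floor h1
      simpa using this
    omega
  refine ⟨fun t => ⟨⌊x t * n⌋₊, hfl t⟩, ?_⟩
  rw [dist_pi_le_iff (by positivity)]
  intro t
  have hnn : 0 ≤ x t * n := mul_nonneg (hx0 t) hn'.le
  have h1 : (⌊x t * n⌋₊ : ℝ) ≤ x t * n := Nat.floor_le hnn
  have h2 : x t * n < ⌊x t * n⌋₊ + 1 := Nat.lt_floor_add_one _
  rw [Real.dist_eq, abs_le]
  constructor
  · rw [neg_le_sub_iff_le_add]
    calc (⌊x t * n⌋₊ : ℝ) / n ≤ x t * n / n := div_le_div_of_nonneg_right h1 hn'.le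
      _ = x t := by field_simp
      _ ≤ x t + 1 / n := by linarith [one_div_pos.mpr hn']
  · rw [sub_le_iff_le_add]
    calc x t = x t * n / n := by field_simp
      _ ≤ (⌊x t * n⌋₊ + 1) / n := div_le_div_of_nonneg_right h2.le hn'.le
      _ = 1 / n + (⌊x t * n⌋₊ : ℝ) / n := by ring

/-- The grid points lie in the unit cube. -/
theorem grid_point_mem {T : Type*} [Fintype T] {n : ℕ} (hn : 0 < n) (a : T → Fin (n + 1)) :
    (fun t => ((a t : ℕ) : ℝ) / n) ∈ Icc (0 : T → ℝ) 1 := by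
  have hn' : (0 : ℝ) < n := Nat.cast_pos.mpr hn
  constructor
  · intro t
    simp only [Pi.zero_apply]
    positivity
  · intro t
    simp only [Pi.one_apply]
    rw [div_le_one hn']
    have : (a t : ℕ) ≤ n := Nat.lt_succ_iff.mp (a t).2
    exact_mod_cast this

/-- **Covering lemma**: the `ε`-thickening of a Lipschitz image of a unit cube of dimension
`< card ι` has volume `O(ε)`. -/
theorem volume_thickening_lipschitzOn_image_le {ι T : Type*} [Fintype ι] [Fintype T]
    (hcard : Fintype.card T + 1 ≤ Fintype.card ι) (φ : (T → ℝ) → (ι → ℝ)) {K : NNReal}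
    (hφ : LipschitzOnWith K φ (Icc 0 1)) :
    ∃ C₀ : ℝ, 0 ≤ C₀ ∧ ∀ ε : ℝ, 0 < ε → ε ≤ 1 →
      volume (thickening ε (φ '' Icc 0 1)) ≤ ENNReal.ofReal (C₀ * ε) := by
  classical
  set m := Fintype.card ι with hm
  set k := Fintype.card T with hk
  refine ⟨3 ^ k * (2 * ((K : ℝ) + 1)) ^ m, by positivity, ?_⟩
  intro ε hε hε1
  set n := ⌈1 / ε⌉₊ with hn
  have hn1 : (1 : ℝ) / ε ≤ n := Nat.le_ceil _
  have hnpos : 0 < n := by
    have : (0 : ℝ) < n := lt_of_lt_of_le (one_div_pos.mpr hε) hn1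
    exact_mod_cast this
  have hn' : (0 : ℝ) < n := Nat.cast_pos.mpr hnpos
  have hn2 : (n : ℝ) < 1 / ε + 1 := Nat.ceil_lt_add_one (one_div_pos.mpr hε).le
  have hinv : (1 : ℝ) / n ≤ ε := by
    rw [div_le_iff₀ hn']
    have := (div_le_iff₀ hε).mp hn1
    linarith [mul_comm (n : ℝ) ε]
  have hn3 : (n : ℝ) + 1 ≤ 3 / ε := by
    have : (1 : ℝ) ≤ 1 / ε := by rw [le_div_iff₀ hε]; linarith
    have h3 : (3 : ℝ) / ε = 1 / ε + 1 / ε + 1 / ε := by ring
    linarith
  -- the covering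
  have hcover : thickening ε (φ '' Icc 0 1) ⊆
      ⋃ a : T → Fin (n + 1), ball (φ (fun t => ((a t : ℕ) : ℝ) / n)) (((K : ℝ) + 1) * ε) := by
    intro y hy
    rw [mem_thickening_iff] at hy
    obtain ⟨z, ⟨x, hx, rfl⟩, hyz⟩ := hy
    obtain ⟨a, ha⟩ := exists_grid_point hnpos hx
    refine mem_iUnion.mpr ⟨a, ?_⟩
    rw [mem_ball]
    have h1 : dist (φ x) (φ (fun t => ((a t : ℕ) : ℝ) / n)) ≤ K * ε := by
      calc dist (φ x) (φ (fun t => ((a t : ℕ) : ℝ) / n))
          ≤ K * dist x (fun t => ((a t : ℕ) : ℝ) / n) :=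
            hφ.dist_le_mul x hx _ (grid_point_mem hnpos a)
        _ ≤ K * (1 / n) := mul_le_mul_of_nonneg_left ha K.coe_nonneg
        _ ≤ K * ε := mul_le_mul_of_nonneg_left hinv K.coe_nonneg
    calc dist y (φ (fun t => ((a t : ℕ) : ℝ) / n))
        ≤ dist y (φ x) + dist (φ x) (φ (fun t => ((a t : ℕ) : ℝ) / n)) := dist_triangle _ _ _
      _ < ε + K * ε := add_lt_add_of_lt_of_le hyz h1
      _ = ((K : ℝ) + 1) * ε := by ring
  have hr : 0 < ((K : ℝ) + 1) * ε := by positivity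
  calc volume (thickening ε (φ '' Icc 0 1))
      ≤ volume (⋃ a : T → Fin (n + 1),
          ball (φ (fun t => ((a t : ℕ) : ℝ) / n)) (((K : ℝ) + 1) * ε)) := measure_mono hcover
    _ ≤ ∑ a : T → Fin (n + 1),
          volume (ball (φ (fun t => ((a t : ℕ) : ℝ) / n)) (((K : ℝ) + 1) * ε)) :=
        measure_iUnion_fintype_le _ _
    _ = ∑ _a : T → Fin (n + 1), ENNReal.ofReal ((2 * (((K : ℝ) + 1) * ε)) ^ m) := by
        refine Finset.sum_congr rfl fun a _ => ?_
        rw [Real.volume_pi_ball _ hr]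
    _ = ENNReal.ofReal (((n : ℝ) + 1) ^ k * (2 * (((K : ℝ) + 1) * ε)) ^ m) := by
        rw [Finset.sum_const, Finset.card_univ, Fintype.card_fun, Fintype.card_fin, nsmul_eq_mul,
          ENNReal.ofReal_mul (by positivity)]
        congr 1
        rw [← ENNReal.ofReal_natCast]
        push_cast
        rfl
    _ ≤ ENNReal.ofReal (3 ^ k * (2 * ((K : ℝ) + 1)) ^ m * ε) := by
        apply ENNReal.ofReal_le_ofReal
        have h1 : ((n : ℝ) + 1) ^ k ≤ (3 / ε) ^ k := pow_le_pow_left₀ (by positivity) hn3 k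
        have h2 : (2 * (((K : ℝ) + 1) * ε)) ^ m = (2 * ((K : ℝ) + 1)) ^ m * ε ^ m := by
          rw [← mul_pow]; ring_nf
        have h3 : ε ^ m ≤ ε ^ (k + 1) := pow_le_pow_of_le_one hε.le hε1 hcard
        have h4 : (3 / ε) ^ k * ε ^ (k + 1) = 3 ^ k * ε := by
          rw [div_pow, pow_succ]
          field_simp
        calc ((n : ℝ) + 1) ^ k * (2 * (((K : ℝ) + 1) * ε)) ^ m
            ≤ (3 / ε) ^ k * ((2 * ((K : ℝ) + 1)) ^ m * ε ^ (k + 1)) := by
              rw [h2]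
              gcongr
          _ = (2 * ((K : ℝ) + 1)) ^ m * ((3 / ε) ^ k * ε ^ (k + 1)) := by ring
          _ = 3 ^ k * (2 * ((K : ℝ) + 1)) ^ m * ε := by rw [h4]; ring

/-- A set whose `ε`-thickenings have volume `O(ε)` (for `ε ≤ 1`). -/
def ThickBdd {E : Type*} [PseudoMetricSpace E] [MeasureSpace E] (S : Set E) : Prop :=
  ∃ C : ℝ, 0 ≤ C ∧ ∀ ε : ℝ, 0 < ε → ε ≤ 1 → volume (thickening ε S) ≤ ENNReal.ofReal (C * ε)

theorem ThickBdd.mono {E : Type*} [PseudoMetricSpace E] [MeasureSpace E] {S S' : Set E}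
    (h : ThickBdd S') (hS : S ⊆ S') : ThickBdd S := by
  obtain ⟨C, hC0, hC⟩ := h
  exact ⟨C, hC0, fun ε hε hε1 =>
    (measure_mono (thickening_subset_of_subset ε hS)).trans (hC ε hε hε1)⟩

theorem ThickBdd.union {E : Type*} [PseudoMetricSpace E] [MeasureSpace E] {S S' : Set E}
    (h : ThickBdd S) (h' : ThickBdd S') : ThickBdd (S ∪ S') := by
  obtain ⟨C, hC0, hC⟩ := h
  obtain ⟨C', hC0', hC'⟩ := h'
  refine ⟨C + C', add_nonneg hC0 hC0', fun ε hε hε1 => ?_⟩
  rw [thickening_union, add_mul, ENNReal.ofReal_add (by positivity) (by positivity)]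
  exact (measure_union_le _ _).trans (add_le_add (hC ε hε hε1) (hC' ε hε hε1))

theorem thickBdd_empty {E : Type*} [PseudoMetricSpace E] [MeasureSpace E] :
    ThickBdd (∅ : Set E) :=
  ⟨0, le_rfl, fun ε _ _ => by simp⟩

theorem ThickBdd.biUnion_finset {E : Type*} [PseudoMetricSpace E] [MeasureSpace E] {J : Type*}
    (s : Finset J) {S : J → Set E} (h : ∀ j ∈ s, ThickBdd (S j)) :
    ThickBdd (⋃ j ∈ s, S j) := by
  classical
  induction s using Finset.induction_on with
  | empty => simpa using thickBdd_empty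
  | insert a s ha ih =>
    rw [Finset.set_biUnion_insert]
    exact (h a (Finset.mem_insert_self a s)).union
      (ih fun j hj => h j (Finset.mem_insert_of_mem hj))

theorem ThickBdd.iUnion_fintype {E : Type*} [PseudoMetricSpace E] [MeasureSpace E] {J : Type*}
    [Fintype J] {S : J → Set E} (h : ∀ j, ThickBdd (S j)) : ThickBdd (⋃ j, S j) := by
  have := ThickBdd.biUnion_finset (Finset.univ : Finset J) (S := S) (fun j _ => h j)
  simpa using this

/-- A point of `ι → ℝ` (`ι` nonempty) has `O(ε)` thickenings. -/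
theorem thickBdd_singleton {ι : Type*} [Fintype ι] [Nonempty ι] (x : ι → ℝ) :
    ThickBdd ({x} : Set (ι → ℝ)) := by
  refine ⟨2 ^ Fintype.card ι, by positivity, fun ε hε hε1 => ?_⟩
  rw [thickening_singleton, Real.volume_pi_ball _ hε]
  apply ENNReal.ofReal_le_ofReal
  rw [mul_pow]
  have h1 : 1 ≤ Fintype.card ι := Fintype.card_pos
  have : ε ^ Fintype.card ι ≤ ε ^ 1 := pow_le_pow_of_le_one hε.le hε1 h1
  rw [pow_one] at this
  gcongr

/-- Lipschitz images of low-dimensional cubes have `O(ε)` thickenings. -/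
theorem thickBdd_image {ι T : Type*} [Fintype ι] [Fintype T]
    (hcard : Fintype.card T + 1 ≤ Fintype.card ι) (φ : (T → ℝ) → (ι → ℝ)) {K : NNReal}
    (hφ : LipschitzOnWith K φ (Icc 0 1)) : ThickBdd (φ '' Icc 0 1) :=
  volume_thickening_lipschitzOn_image_le hcard φ hφ

end Fermat.Agent.S14.ACNT2
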