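import Mathlib
import Fermat.Agent.S14.ACount.Cover

/-!
# P-CFT, module A-CNT2: the thickened frontier of `normLeOne K` has volume `O(ε)`
-/

set_option autoImplicit false

open MeasureTheory Metric Set NumberField NumberField.InfinitePlace NumberField.mixedEmbedding
  NumberField.mixedEmbedding.fundamentalCone NumberField.Units NumberField.Units.dirichletUnitTheorem

namespace Fermat.Agent.S14.ACNT2

variable (K : Type*) [Field K] [NumberField K]

/-- `expMapBasis` is continuously differentiable. -/
theorem contDiff_expMapBasis :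
    ContDiff ℝ 1 (expMapBasis : realSpace K → realSpace K) := by
  have h : (expMapBasis : realSpace K → realSpace K) =
      fun x => fun w => Real.exp ((w.mult : ℝ)⁻¹ * ((completeBasis K).equivFunL.symm x) w) := by
    funext x w
    rw [expMapBasis_apply, expMap_apply]
    rfl
  rw [h]
  refine contDiff_pi.mpr fun w => ?_
  refine Real.contDiff_exp.comp (contDiff_const.mul ?_)
  exact (contDiff_apply ℝ ℝ w).comp ((completeBasis K).equivFunL.symm.contDiff)

/-- A `C¹` map is Lipschitz on the unit cube. -/
theorem exists_lipschitzOnWith_Icc {T ι : Type*} [Fintype T] [Fintype ι]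
    {φ : (T → ℝ) → (ι → ℝ)} (h : ContDiff ℝ 1 φ) :
    ∃ L : NNReal, LipschitzOnWith L φ (Icc 0 1) :=
  LocallyLipschitzOn.exists_lipschitzOnWith_of_compact isCompact_Icc
    h.locallyLipschitz.locallyLipschitzOn

open scoped Classical in
/-- Extend `t` by the value `b` at the place `w`. -/
noncomputable def extAt (w : InfinitePlace K) (b : ℝ) (t : {v : InfinitePlace K // v ≠ w} → ℝ) :
    realSpace K :=
  fun v => if h : v = w then b else t ⟨v, h⟩

open scoped Classical in
theorem contDiff_extAt (w : InfinitePlace K) (b : ℝ) : ContDiff ℝ 1 (extAt K w b) := by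
  refine contDiff_pi.mpr fun v => ?_
  by_cases h : v = w
  · simp only [extAt, dif_pos h]
    exact contDiff_const
  · simp only [extAt, dif_neg h]
    exact contDiff_apply ℝ ℝ (⟨v, h⟩ : {v : InfinitePlace K // v ≠ w})

open scoped Classical in
/-- Kill the `w₀`-coordinate. -/
noncomputable def zeroAt (c : realSpace K) : realSpace K :=
  fun i => if i = w₀ then 0 else c i

open scoped Classical in
theorem contDiff_zeroAt : ContDiff ℝ 1 (zeroAt K) := by
  refine contDiff_pi.mpr fun v => ?_
  by_cases h : v = w₀
  · simp only [zeroAt, if_pos h]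
    exact contDiff_const
  · simp only [zeroAt, if_neg h]
    exact contDiff_apply ℝ ℝ v

open scoped Classical in
/-- The parametrisations of the faces of the frontier. -/
noncomputable def faceMap (w : InfinitePlace K) (b : ℝ)
    (t : {v : InfinitePlace K // v ≠ w} → ℝ) : realSpace K :=
  if hw : w = w₀ then expMapBasis (extAt K w 0 t)
  else t ⟨w₀, Ne.symm hw⟩ • expMapBasis (zeroAt K (extAt K w b t))

open scoped Classical in
theorem contDiff_faceMap (w : InfinitePlace K) (b : ℝ) : ContDiff ℝ 1 (faceMap K w b) := by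
  by_cases hw : w = w₀
  · have : faceMap K w b = fun t => expMapBasis (extAt K w 0 t) := by
      funext t
      simp only [faceMap, dif_pos hw]
    rw [this]
    exact (contDiff_expMapBasis K).comp (contDiff_extAt K w 0)
  · have : faceMap K w b =
        fun t => t ⟨w₀, Ne.symm hw⟩ • expMapBasis (zeroAt K (extAt K w b t)) := by
      funext t
      simp only [faceMap, dif_neg hw]
    rw [this]
    exact (contDiff_apply ℝ ℝ (⟨w₀, Ne.symm hw⟩ : {v : InfinitePlace K // v ≠ w})).smul
      ((contDiff_expMapBasis K).comp ((contDiff_zeroAt K).comp (contDiff_extAt K w b)))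

open scoped Classical in
theorem thickBdd_faceMap (w : InfinitePlace K) (b : ℝ) :
    ThickBdd (faceMap K w b '' Icc 0 1) := by
  obtain ⟨L, hL⟩ := exists_lipschitzOnWith_Icc (contDiff_faceMap K w b)
  refine thickBdd_image ?_ _ hL
  have : Fintype.card {v : InfinitePlace K // v ≠ w} < Fintype.card (InfinitePlace K) :=
    Fintype.card_subtype_lt (p := fun v => v ≠ w) (x := w) (by simp)
  omega

open scoped Classical in
/-- The part of `compactSet K` outside the image of the open parameter box is covered by the
origin and the faces. -/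
theorem mem_faces_of_mem_compactSet {x : realSpace K} (hx : x ∈ compactSet K)
    (hx' : x ∉ expMapBasis '' interior (paramSet K)) :
    x ∈ ({0} : Set (realSpace K)) ∪
      ⋃ w : InfinitePlace K, (faceMap K w 0 '' Icc 0 1 ∪ faceMap K w 1 '' Icc 0 1) := by
  rw [compactSet_eq_union] at hx
  rcases hx with ⟨c, hc, rfl⟩ | hx
  · right
    have hc' : c ∉ interior (paramSet K) := fun h => hx' ⟨c, h, rfl⟩
    rw [closure_paramSet, Set.mem_univ_pi] at hc
    rw [interior_paramSet, Set.mem_univ_pi, not_forall] at hc'
    obtain ⟨w, hw⟩ := hc'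
    refine mem_iUnion.mpr ⟨w, ?_⟩
    have hcI : ∀ v : InfinitePlace K, v ≠ w₀ → 0 ≤ c v ∧ c v ≤ 1 := by
      intro v hv
      have := hc v
      rw [if_neg hv] at this
      exact this
    have hc0 : c w₀ ≤ 0 := by
      have := hc w₀
      rw [if_pos rfl] at this
      exact this
    by_cases hw0 : w = w₀
    · left
      rw [if_pos hw0] at hw
      have hcw : c w = 0 := by
        have h1 : 0 ≤ c w := not_lt.mp hw
        have h2 : c w ≤ 0 := hw0 ▸ hc0
        exact le_antisymm h2 h1
      refine ⟨fun v => c v.1, ⟨fun v => (hcI v.1 (hw0 ▸ v.2)).1, fun v => (hcI v.1 (hw0 ▸ v.2)).2⟩,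
        ?_⟩
      simp only [faceMap, dif_pos hw0]
      congr 1
      funext v
      by_cases hv : v = w
      · simp only [extAt, dif_pos hv]
        rw [hv, hcw]
      · simp only [extAt, dif_neg hv]
    · rw [if_neg hw0] at hw
      have hcw : c w = 0 ∨ c w = 1 := by
        have h1 := hcI w hw0
        by_contra hne
        push Not at hne
        exact hw ⟨lt_of_le_of_ne h1.1 (Ne.symm hne.1), lt_of_le_of_ne h1.2 hne.2⟩
      have key : ∀ b : ℝ, c w = b → expMapBasis c ∈ faceMap K w b '' Icc 0 1 := by
        intro b hb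
        refine ⟨fun v => if v.1 = w₀ then Real.exp (c w₀) else c v.1, ⟨fun v => ?_, fun v => ?_⟩,
          ?_⟩
        · simp only [Pi.zero_apply]
          split_ifs with h
          · exact (Real.exp_pos _).le
          · exact (hcI v.1 h).1
        · simp only [Pi.one_apply]
          split_ifs with h
          · exact Real.exp_le_one_iff.mpr hc0
          · exact (hcI v.1 h).2
        · simp only [faceMap, dif_neg hw0, if_true]
          rw [expMapBasis_apply'' c]
          congr 2
          funext i
          by_cases hi : i = w₀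
          · simp only [zeroAt, if_pos hi]
          · simp only [zeroAt, if_neg hi]
            by_cases hiw : i = w
            · simp only [extAt, dif_pos hiw]
              rw [hiw, hb]
            · simp only [extAt, dif_neg hiw, if_neg hi]
      rcases hcw with h | h
      · exact Or.inl (key 0 h)
      · exact Or.inr (key 1 h)
  · left
    exact hx

open scoped Classical in
/-- `normAtAllPlaces` is `1`-Lipschitz. -/
theorem dist_normAtAllPlaces_le (x y : mixedSpace K) :
    dist (normAtAllPlaces x) (normAtAllPlaces y) ≤ dist x y := by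
  rw [dist_pi_le_iff dist_nonneg]
  intro w
  rw [Real.dist_eq, normAtAllPlaces_apply, normAtAllPlaces_apply]
  obtain hw | hw := isReal_or_isComplex w
  · rw [normAtPlace_apply_of_isReal hw, normAtPlace_apply_of_isReal hw]
    calc |‖x.1 ⟨w, hw⟩‖ - ‖y.1 ⟨w, hw⟩‖| ≤ ‖x.1 ⟨w, hw⟩ - y.1 ⟨w, hw⟩‖ := abs_norm_sub_norm_le _ _
      _ = dist (x.1 ⟨w, hw⟩) (y.1 ⟨w, hw⟩) := (dist_eq_norm _ _).symm
      _ ≤ dist x.1 y.1 := dist_le_pi_dist x.1 y.1 ⟨w, hw⟩
      _ ≤ dist x y := le_max_left _ _
  · rw [normAtPlace_apply_of_isComplex hw, normAtPlace_apply_of_isComplex hw]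
    calc |‖x.2 ⟨w, hw⟩‖ - ‖y.2 ⟨w, hw⟩‖| ≤ ‖x.2 ⟨w, hw⟩ - y.2 ⟨w, hw⟩‖ := abs_norm_sub_norm_le _ _
      _ = dist (x.2 ⟨w, hw⟩) (y.2 ⟨w, hw⟩) := (dist_eq_norm _ _).symm
      _ ≤ dist x.2 y.2 := dist_le_pi_dist x.2 y.2 ⟨w, hw⟩
      _ ≤ dist x y := le_max_right _ _

open scoped Classical in
/-- Thickening commutes with preimages under `normAtAllPlaces` (one inclusion). -/
theorem thickening_preimage_subset (ε : ℝ) (B : Set (realSpace K)) :
    thickening ε (normAtAllPlaces ⁻¹' B) ⊆ normAtAllPlaces ⁻¹' (thickening ε B) := by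
  intro y hy
  rw [mem_thickening_iff] at hy
  obtain ⟨z, hz, hyz⟩ := hy
  rw [mem_preimage, mem_thickening_iff]
  exact ⟨normAtAllPlaces z, hz, lt_of_le_of_lt (dist_normAtAllPlaces_le K y z) hyz⟩

open scoped Classical in
/-- The frontier of `normLeOne K` lies over the complement of the open part. -/
theorem frontier_normLeOne_subset :
    frontier (normLeOne K) ⊆
      normAtAllPlaces ⁻¹' (compactSet K \ expMapBasis '' interior (paramSet K)) := by
  intro x hx
  refine ⟨closure_normLeOne_subset K hx.1, fun h => hx.2 (subset_interior_normLeOne K h)⟩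

open scoped Classical in
/-- Volume of a norm-stable set lying over a bounded measurable set of `realSpace K`. -/
theorem volume_preimage_normAtAllPlaces_le {T : Set (realSpace K)} (hT : MeasurableSet T)
    {R : ℝ} (hR : 0 ≤ R) (hTR : ∀ x ∈ T, ∀ w, x w ≤ R) :
    volume (normAtAllPlaces ⁻¹' T : Set (mixedSpace K)) ≤
      ENNReal.ofReal (2 ^ nrRealPlaces K * (2 * Real.pi) ^ nrComplexPlaces K *
        R ^ nrComplexPlaces K) * volume T := by
  have hm : MeasurableSet (normAtAllPlaces ⁻¹' T : Set (mixedSpace K)) :=
    hT.preimage (continuous_normAtAllPlaces K).measurable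
  rw [volume_eq_two_pow_mul_two_pi_pow_mul_integral Set.preimage_image_preimage hm]
  have h1 : ∫⁻ x in normAtAllPlaces '' (normAtAllPlaces ⁻¹' T : Set (mixedSpace K)),
        ∏ w : {w : InfinitePlace K // IsComplex w}, ENNReal.ofReal (x w.1)
      ≤ ∫⁻ x in T, ∏ w : {w : InfinitePlace K // IsComplex w}, ENNReal.ofReal (x w.1) :=
    lintegral_mono_set (Set.image_preimage_subset _ _)
  have h2 : ∫⁻ x in T, ∏ w : {w : InfinitePlace K // IsComplex w}, ENNReal.ofReal (x w.1)
      ≤ ∫⁻ _x in T, ENNReal.ofReal (R ^ nrComplexPlaces K) := by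
    refine setLIntegral_mono' hT fun x hx => ?_
    calc ∏ w : {w : InfinitePlace K // IsComplex w}, ENNReal.ofReal (x w.1)
        ≤ ∏ _w : {w : InfinitePlace K // IsComplex w}, ENNReal.ofReal R :=
          Finset.prod_le_prod' fun w _ => ENNReal.ofReal_le_ofReal (hTR x hx w.1)
      _ = ENNReal.ofReal (R ^ nrComplexPlaces K) := by
          rw [Finset.prod_const, Finset.card_univ, ENNReal.ofReal_pow hR]
  rw [setLIntegral_const] at h2
  have hc : (2 : ENNReal) ^ nrRealPlaces K * ENNReal.ofReal (2 * Real.pi) ^ nrComplexPlaces K *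
      ENNReal.ofReal (R ^ nrComplexPlaces K) =
      ENNReal.ofReal (2 ^ nrRealPlaces K * (2 * Real.pi) ^ nrComplexPlaces K *
        R ^ nrComplexPlaces K) := by
    have hA : ENNReal.ofReal ((2 : ℝ) ^ nrRealPlaces K) = (2 : ENNReal) ^ nrRealPlaces K := by
      rw [ENNReal.ofReal_pow (by norm_num), ENNReal.ofReal_ofNat]
    have hB : ENNReal.ofReal ((2 * Real.pi) ^ nrComplexPlaces K) =
        ENNReal.ofReal (2 * Real.pi) ^ nrComplexPlaces K :=
      ENNReal.ofReal_pow (by positivity) _
    rw [← hA, ← hB, ← ENNReal.ofReal_mul (by positivity), ← ENNReal.ofReal_mul (by positivity)]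
  calc (2 : ENNReal) ^ nrRealPlaces K * ENNReal.ofReal (2 * Real.pi) ^ nrComplexPlaces K *
        ∫⁻ x in normAtAllPlaces '' (normAtAllPlaces ⁻¹' T : Set (mixedSpace K)),
          ∏ w : {w : InfinitePlace K // IsComplex w}, ENNReal.ofReal (x w.1)
      ≤ (2 : ENNReal) ^ nrRealPlaces K * ENNReal.ofReal (2 * Real.pi) ^ nrComplexPlaces K *
        (ENNReal.ofReal (R ^ nrComplexPlaces K) * volume T) := by
          gcongr
          exact h1.trans h2
    _ = ENNReal.ofReal (2 ^ nrRealPlaces K * (2 * Real.pi) ^ nrComplexPlaces K *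
        R ^ nrComplexPlaces K) * volume T := by
          rw [← mul_assoc, hc]

open scoped Classical in
/-- **A-CNT2** (in the `ACNT2` namespace). -/
theorem volume_thickening_frontier_normLeOne_aux :
    ∃ C₀ : ℝ, ∀ ε : ℝ, 0 < ε → ε ≤ 1 →
      volume (thickening ε (frontier (normLeOne K))) ≤ ENNReal.ofReal (C₀ * ε) := by
  have hBthick : ThickBdd (compactSet K \ expMapBasis '' interior (paramSet K)) := by
    have hcov : compactSet K \ expMapBasis '' interior (paramSet K) ⊆
        ({0} : Set (realSpace K)) ∪
          ⋃ w : InfinitePlace K, (faceMap K w 0 '' Icc 0 1 ∪ faceMap K w 1 '' Icc 0 1) :=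
      fun x hx => mem_faces_of_mem_compactSet K hx.1 hx.2
    refine ThickBdd.mono ?_ hcov
    exact (thickBdd_singleton (0 : realSpace K)).union
      (ThickBdd.iUnion_fintype fun w => (thickBdd_faceMap K w 0).union (thickBdd_faceMap K w 1))
  obtain ⟨C, hC0, hC⟩ := hBthick
  obtain ⟨R, hR⟩ : ∃ R : ℝ, ∀ x ∈ compactSet K, ‖x‖ ≤ R :=
    (isCompact_compactSet K).isBounded.exists_norm_le
  have hR0 : 0 ≤ R := (norm_nonneg _).trans (hR 0 (zero_mem_compactSet K))
  refine ⟨2 ^ nrRealPlaces K * (2 * Real.pi) ^ nrComplexPlaces K *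
    (R + 1) ^ nrComplexPlaces K * C, fun ε hε hε1 => ?_⟩
  have hTR : ∀ x ∈ thickening ε (compactSet K \ expMapBasis '' interior (paramSet K)),
      ∀ w, x w ≤ R + 1 := by
    intro x hx w
    rw [mem_thickening_iff] at hx
    obtain ⟨z, hz, hxz⟩ := hx
    have h1 : x w - z w ≤ dist x z := by
      have := dist_le_pi_dist x z w
      rw [Real.dist_eq] at this
      exact (le_abs_self _).trans this
    have h2 : z w ≤ R := by
      have := (norm_le_pi_norm z w).trans (hR z hz.1)
      rw [Real.norm_eq_abs] at this
      exact (le_abs_self _).trans this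
    linarith
  calc volume (thickening ε (frontier (normLeOne K)))
      ≤ volume (thickening ε (normAtAllPlaces ⁻¹'
          (compactSet K \ expMapBasis '' interior (paramSet K)) : Set (mixedSpace K))) :=
        measure_mono (thickening_subset_of_subset ε (frontier_normLeOne_subset K))
    _ ≤ volume (normAtAllPlaces ⁻¹'
          (thickening ε (compactSet K \ expMapBasis '' interior (paramSet K))) :
            Set (mixedSpace K)) :=
        measure_mono (thickening_preimage_subset K ε _)
    _ ≤ ENNReal.ofReal (2 ^ nrRealPlaces K * (2 * Real.pi) ^ nrComplexPlaces K *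
          (R + 1) ^ nrComplexPlaces K) *
          volume (thickening ε (compactSet K \ expMapBasis '' interior (paramSet K))) :=
        volume_preimage_normAtAllPlaces_le K isOpen_thickening.measurableSet (by positivity) hTR
    _ ≤ ENNReal.ofReal (2 ^ nrRealPlaces K * (2 * Real.pi) ^ nrComplexPlaces K *
          (R + 1) ^ nrComplexPlaces K) * ENNReal.ofReal (C * ε) := by
        gcongr
        exact hC ε hε hε1
    _ = ENNReal.ofReal (2 ^ nrRealPlaces K * (2 * Real.pi) ^ nrComplexPlaces K *
          (R + 1) ^ nrComplexPlaces K * C * ε) := by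
        rw [← ENNReal.ofReal_mul (by positivity)]
        congr 1
        ring

end Fermat.Agent.S14.ACNT2

namespace Fermat.Agent.S14

open scoped Classical in
/-- **A-CNT2**: the `ε`-thickening of the frontier of `normLeOne K` has volume `O(ε)`
(thickening with respect to the sup-type norm of `mixedSpace K`; the instances on `mixedSpace K`
are the ones of Mathlib under `open scoped Classical`, as in `volume_frontier_normLeOne`). -/
theorem volume_thickening_frontier_normLeOne (K : Type*) [Field K] [NumberField K] :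
    ∃ C₀ : ℝ, ∀ ε : ℝ, 0 < ε → ε ≤ 1 →
      MeasureTheory.volume (Metric.thickening ε
        (frontier (NumberField.mixedEmbedding.fundamentalCone.normLeOne K))) ≤
        ENNReal.ofReal (C₀ * ε) :=
  ACNT2.volume_thickening_frontier_normLeOne_aux K

end Fermat.Agent.S14
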