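import Mathlib
import Fermat.Agent.S14.Iface

/-!
# P-CFT, A-CNT3: counting integral ideals in a class with an error term

`ifaceCnt_of : StmtCNT1 → StmtCNT2 → IfaceCnt`.
-/

set_option autoImplicit false

open NumberField IsDedekindDomain
open scoped nonZeroDivisors Pointwise

namespace Fermat.Agent.S14.ACNT3

open Ideal Filter InfinitePlace mixedEmbedding euclidean fundamentalCone Submodule Topology
  MeasureTheory
open NumberField.Units

/-- The statement of A-CNT1 (`card_le_sub_le`), at universe level `0`. -/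
def StmtCNT1 : Prop :=
  ∀ {E : Type} [NormedAddCommGroup E] [InnerProductSpace ℝ E] [FiniteDimensional ℝ E]
    [MeasurableSpace E] [BorelSpace E] [Nontrivial E]
    (L : Submodule ℤ E) [DiscreteTopology L] [IsZLattice ℝ L] {X : Set E} {F : E → ℝ}
    (_hX : ∀ ⦃x⦄ ⦃r : ℝ⦄, x ∈ X → 0 < r → r • x ∈ X)
    (_h₁ : ∀ x ⦃r : ℝ⦄, 0 ≤ r → F (r • x) = r ^ Module.finrank ℝ E * (F x))
    (_h₂ : Bornology.IsBounded {x ∈ X | F x ≤ 1}) (_h₃ : MeasurableSet {x ∈ X | F x ≤ 1})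
    (_h₄ : ∃ C₀ : ℝ, ∀ ε : ℝ, 0 < ε → ε ≤ 1 →
        MeasureTheory.volume (Metric.thickening ε (frontier {x ∈ X | F x ≤ 1})) ≤
          ENNReal.ofReal (C₀ * ε)),
    ∃ C : ℝ, ∀ c : ℝ, 1 ≤ c →
      |(Nat.card ({x ∈ X | F x ≤ c} ∩ L : Set E) : ℝ) -
          c * (MeasureTheory.volume.real {x ∈ X | F x ≤ 1} / ZLattice.covolume L)|
        ≤ C * c ^ (1 - 1 / (Module.finrank ℝ E : ℝ))

open scoped Classical in
/-- The statement of A-CNT2 (`volume_thickening_frontier_normLeOne`), at universe level `0`,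
in the mixed space (sup-type norm). -/
def StmtCNT2 : Prop :=
  ∀ (K : Type) [Field K] [NumberField K],
    ∃ C₀ : ℝ, ∀ ε : ℝ, 0 < ε → ε ≤ 1 →
      MeasureTheory.volume (Metric.thickening ε (frontier (normLeOne K))) ≤
        ENNReal.ofReal (C₀ * ε)

open scoped Classical in
/-- The statement of A-CNT2 in the euclidean model. -/
def StmtCNT2Euclid : Prop :=
  ∀ (K : Type) [Field K] [NumberField K],
    ∃ C₀ : ℝ, ∀ ε : ℝ, 0 < ε → ε ≤ 1 →
      MeasureTheory.volume (Metric.thickening ε (frontier ((toMixed K) ⁻¹' (normLeOne K)))) ≤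
        ENNReal.ofReal (C₀ * ε)

variable (K : Type*) [Field K] [NumberField K]

variable {C : ClassGroup (𝓞 K)} {J : (Ideal (𝓞 K))⁰} {s : ℝ}

theorem ACNT3_aux₁ (hJ : ClassGroup.mk0 J = C⁻¹) :
    Nat.card {I : (Ideal (𝓞 K))⁰ // absNorm (I : Ideal (𝓞 K)) ≤ s ∧ ClassGroup.mk0 I = C}
      = Nat.card {I : (Ideal (𝓞 K))⁰ // (J : Ideal (𝓞 K)) ∣ I ∧ IsPrincipal (I : Ideal (𝓞 K)) ∧
        absNorm (I : Ideal (𝓞 K)) ≤ s * absNorm (J : Ideal (𝓞 K))} := by
  simp_rw [← nonZeroDivisors_dvd_iff_dvd_coe]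
  refine Nat.card_congr ?_
  refine ((Equiv.dvd J).subtypeEquiv fun I ↦ ?_).trans
    (Equiv.subtypeSubtypeEquivSubtypeInter (fun I : (Ideal (𝓞 K))⁰ ↦ J ∣ I) _)
  rw [← ClassGroup.mk0_eq_one_iff (SetLike.coe_mem _)]
  simp_rw [Equiv.dvd_apply, Submonoid.coe_mul, ← Submonoid.mul_def, _root_.map_mul, hJ,
    inv_mul_eq_one, Nat.cast_mul, mul_comm s, eq_comm, and_comm, and_congr_left_iff]
  exact fun _ ↦
    (mul_le_mul_iff_of_pos_left (Nat.cast_pos.mpr (absNorm_pos_of_nonZeroDivisors J))).symm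

open scoped Classical in
noncomputable def ACNT3_aux₂ :
    ↑({x | x ∈ (toMixed K) ⁻¹' fundamentalCone K ∧ mixedEmbedding.norm ((toMixed K) x) ≤ s} ∩
      (ZLattice.comap ℝ (idealLattice K ((FractionalIdeal.mk0 K) J)) (toMixed K).toLinearMap))
        ≃ {a : idealSet K J // mixedEmbedding.norm (a : mixedSpace K) ≤ s} := by
  rw [ZLattice.coe_comap]
  refine (((toMixed K).toEquiv.image _).trans (Equiv.subtypeEquivProp ?_)).trans
    (Equiv.subtypeSubtypeEquivSubtypeInter _ (mixedEmbedding.norm · ≤ s)).symm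
  ext
  simp_rw [mem_idealSet, Set.mem_image, Set.mem_inter_iff, Set.mem_preimage, SetLike.mem_coe,
    mem_idealLattice, FractionalIdeal.coe_mk0]
  constructor
  · rintro ⟨_, ⟨⟨hx₁, hx₂⟩, _, ⟨x, hx₃, rfl⟩, h⟩, rfl⟩
    exact ⟨⟨hx₁, x, hx₃, h⟩, hx₂⟩
  · rintro ⟨⟨hx₁, ⟨x, hx₂, rfl⟩⟩, hx₃⟩
    exact ⟨(toMixed K).symm (mixedEmbedding K x), ⟨⟨hx₁, hx₃⟩, ⟨(x : K), by simp [hx₂], rfl⟩⟩, rfl⟩


open scoped Classical in
theorem ACNT3_count (h1 : StmtCNT1) (h2 : StmtCNT2Euclid) (K : Type) [Field K] [NumberField K]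
    (J : (Ideal (𝓞 K))⁰) :
    ∃ C : ℝ, ∀ c : ℝ, 1 ≤ c →
      |(Nat.card {I : (Ideal (𝓞 K))⁰ // (J : Ideal (𝓞 K)) ∣ I ∧ IsPrincipal (I : Ideal (𝓞 K)) ∧
          absNorm (I : Ideal (𝓞 K)) ≤ c} : ℝ) * torsionOrder K -
        c * (volume.real (normLeOne K) /
          (absNorm (J : Ideal (𝓞 K)) * (2⁻¹) ^ nrComplexPlaces K * √|discr K|))|
        ≤ C * c ^ (1 - 1 / (Module.finrank ℝ (euclidean.mixedSpace K) : ℝ)) := by
  have h₁ : ∀ s : ℝ,
    {x | x ∈ toMixed K ⁻¹' fundamentalCone K ∧ mixedEmbedding.norm (toMixed K x) ≤ s} =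
      toMixed K ⁻¹' {x | x ∈ fundamentalCone K ∧ mixedEmbedding.norm x ≤ s} := fun _ ↦ rfl
  have h₂ : {x | x ∈ fundamentalCone K ∧ mixedEmbedding.norm x ≤ 1} = normLeOne K := by ext; simp
  have hX : ∀ ⦃x : euclidean.mixedSpace K⦄ ⦃r : ℝ⦄, x ∈ (toMixed K) ⁻¹' (fundamentalCone K) →
      0 < r → r • x ∈ (toMixed K) ⁻¹' (fundamentalCone K) := fun _ _ _ h ↦ by
    rwa [Set.mem_preimage, map_smul, smul_mem_iff_mem h.ne']
  have hF : ∀ (x : euclidean.mixedSpace K) ⦃r : ℝ⦄, 0 ≤ r →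
      mixedEmbedding.norm (toMixed K (r • x)) =
        r ^ Module.finrank ℝ (euclidean.mixedSpace K) * mixedEmbedding.norm (toMixed K x) :=
    fun _ _ h ↦ by
      rw [map_smul, mixedEmbedding.norm_smul, euclidean.finrank, abs_of_nonneg h]
  have hM : MeasurableSet
      {x | x ∈ toMixed K ⁻¹' fundamentalCone K ∧ mixedEmbedding.norm (toMixed K x) ≤ 1} :=
    (toMixed K).continuous.measurable (measurableSet_normLeOne K)
  have hT : ∃ C₀ : ℝ, ∀ ε : ℝ, 0 < ε → ε ≤ 1 →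
      volume (Metric.thickening ε (frontier
        {x | x ∈ toMixed K ⁻¹' fundamentalCone K ∧ mixedEmbedding.norm (toMixed K x) ≤ 1})) ≤
          ENNReal.ofReal (C₀ * ε) := by
    rw [h₁, h₂]
    exact h2 K
  obtain ⟨C, hC⟩ := h1 (E := euclidean.mixedSpace K)
    (ZLattice.comap ℝ (mixedEmbedding.idealLattice K (FractionalIdeal.mk0 K J))
      (toMixed K).toLinearMap)
    (F := fun x ↦ mixedEmbedding.norm (toMixed K x)) (X := (toMixed K) ⁻¹' (fundamentalCone K))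
    hX hF ((toMixed K).antilipschitz.isBounded_preimage (isBounded_normLeOne K)) hM hT
  refine ⟨C, fun c hc ↦ ?_⟩
  have := hC c hc
  rw [Nat.card_congr (ACNT3_aux₂ K), ← card_isPrincipal_dvd_norm_le, h₁, h₂,
    MeasureTheory.measureReal_def, (volumePreserving_toMixed K).measure_preimage
      (measurableSet_normLeOne K).nullMeasurableSet, ← MeasureTheory.measureReal_def,
    ZLattice.covolume_comap _ _ _ (volumePreserving_toMixed K), covolume_idealLattice,
    FractionalIdeal.coe_mk0, FractionalIdeal.coeIdeal_absNorm, Rat.cast_natCast] at this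
  push_cast at this
  exact this

open scoped Classical in
/-- A-CNT3 from A-CNT1 and the euclidean form of A-CNT2. -/
theorem ifaceCnt_of_euclid (h1 : StmtCNT1) (h2 : StmtCNT2Euclid) : IfaceCnt := by
  intro F _ _
  choose J hJ using fun c : ClassGroup (𝓞 F) ↦ ClassGroup.mk0_surjective c⁻¹
  choose Cst hCst using fun c : ClassGroup (𝓞 F) ↦ ACNT3_count h1 h2 F (J c)
  set θ : ℝ := 1 - 1 / (Module.finrank ℝ (euclidean.mixedSpace F) : ℝ) with hθ
  have hθ1 : θ < 1 := by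
    have h0 : 0 < (Module.finrank ℝ (euclidean.mixedSpace F) : ℝ) := by
      exact_mod_cast Module.finrank_pos
    have := one_div_pos.mpr h0
    linarith
  set w : ℝ := (torsionOrder F : ℝ) with hw
  have hw0 : 0 < w := by
    rw [hw]
    exact_mod_cast Nat.pos_of_ne_zero (torsionOrder_ne_zero F)
  set κ : ℝ := volume.real (normLeOne F) / ((2⁻¹) ^ nrComplexPlaces F * √|(discr F : ℝ)|) with hκ
  have key : ∀ (c : ClassGroup (𝓞 F)) (x : ℝ), 1 ≤ x →
      |(ClassCount F c x : ℝ) * w - x * κ| ≤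
        (|Cst c| * (absNorm ((J c : (Ideal (𝓞 F))⁰) : Ideal (𝓞 F)) : ℝ) ^ θ) * x ^ θ := by
    intro c x hx
    have hN : (1 : ℝ) ≤ (absNorm ((J c : (Ideal (𝓞 F))⁰) : Ideal (𝓞 F)) : ℝ) := by
      exact_mod_cast Nat.one_le_iff_ne_zero.mpr (absNorm_ne_zero_of_nonZeroDivisors (J c))
    have hN0 : (0 : ℝ) < (absNorm ((J c : (Ideal (𝓞 F))⁰) : Ideal (𝓞 F)) : ℝ) := by linarith
    have hx0 : (0 : ℝ) ≤ x := by linarith
    have := hCst c (x * absNorm ((J c : (Ideal (𝓞 F))⁰) : Ideal (𝓞 F)))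
      (one_le_mul_of_one_le_of_one_le hx hN)
    rw [← ACNT3_aux₁ F (hJ c)] at this
    have e1 : x * (absNorm ((J c : (Ideal (𝓞 F))⁰) : Ideal (𝓞 F)) : ℝ) *
        (volume.real (normLeOne F) / ((absNorm ((J c : (Ideal (𝓞 F))⁰) : Ideal (𝓞 F)) : ℝ) *
          (2⁻¹) ^ nrComplexPlaces F * √|(discr F : ℝ)|)) = x * κ := by
      rw [hκ]
      field_simp
    rw [e1, Real.mul_rpow hx0 hN0.le] at this
    refine this.trans ?_
    have hpos : 0 ≤ x ^ θ * (absNorm ((J c : (Ideal (𝓞 F))⁰) : Ideal (𝓞 F)) : ℝ) ^ θ := by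
      positivity
    calc Cst c * (x ^ θ * (absNorm ((J c : (Ideal (𝓞 F))⁰) : Ideal (𝓞 F)) : ℝ) ^ θ)
        ≤ |Cst c| * (x ^ θ * (absNorm ((J c : (Ideal (𝓞 F))⁰) : Ideal (𝓞 F)) : ℝ) ^ θ) :=
          mul_le_mul_of_nonneg_right (le_abs_self _) hpos
      _ = _ := by ring
  set S : ℝ := ∑ c : ClassGroup (𝓞 F),
    |Cst c| * (absNorm ((J c : (Ideal (𝓞 F))⁰) : Ideal (𝓞 F)) : ℝ) ^ θ with hS
  have hterm : ∀ c : ClassGroup (𝓞 F),
      |Cst c| * (absNorm ((J c : (Ideal (𝓞 F))⁰) : Ideal (𝓞 F)) : ℝ) ^ θ ≤ S := by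
    intro c
    rw [hS]
    exact Finset.single_le_sum (f := fun c : ClassGroup (𝓞 F) ↦
      |Cst c| * (absNorm ((J c : (Ideal (𝓞 F))⁰) : Ideal (𝓞 F)) : ℝ) ^ θ)
      (fun _ _ ↦ by positivity) (Finset.mem_univ c)
  refine ⟨2 * S / w, θ, hθ1, fun c c' x hx ↦ ?_⟩
  have hx0 : (0 : ℝ) ≤ x ^ θ := by positivity
  have k1 := (key c x hx).trans (mul_le_mul_of_nonneg_right (hterm c) hx0)
  have k2 := (key c' x hx).trans (mul_le_mul_of_nonneg_right (hterm c') hx0)
  have e : (ClassCount F c x : ℝ) - (ClassCount F c' x : ℝ) =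
      (((ClassCount F c x : ℝ) * w - x * κ) - ((ClassCount F c' x : ℝ) * w - x * κ)) / w := by
    field_simp
    ring
  rw [e, abs_div, abs_of_pos hw0, div_le_iff₀ hw0]
  calc |((ClassCount F c x : ℝ) * w - x * κ) - ((ClassCount F c' x : ℝ) * w - x * κ)|
      ≤ |(ClassCount F c x : ℝ) * w - x * κ| + |(ClassCount F c' x : ℝ) * w - x * κ| :=
        abs_sub _ _
    _ ≤ S * x ^ θ + S * x ^ θ := add_le_add k1 k2
    _ = 2 * S / w * x ^ θ * w := by
      field_simp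
      ring


open scoped Classical in
/-- Transfer of the frontier estimate from the mixed space to its euclidean model. -/
theorem ACNT3_euclid_of_mixed (h2 : StmtCNT2) : StmtCNT2Euclid := by
  intro K _ _
  obtain ⟨C₀, hC₀⟩ := h2 K
  set Lf : ℝ := max (‖((toMixed K : euclidean.mixedSpace K ≃L[ℝ] mixedSpace K) :
    euclidean.mixedSpace K →L[ℝ] mixedSpace K)‖₊ : ℝ) 1 with hLf
  have hLf1 : 1 ≤ Lf := le_max_right _ _
  have hLf0 : 0 < Lf := by linarith
  have hlip : ∀ x y : euclidean.mixedSpace K,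
      dist (toMixed K x) (toMixed K y) ≤ Lf * dist x y := by
    intro x y
    have := (toMixed K : euclidean.mixedSpace K ≃L[ℝ] mixedSpace K).lipschitz.dist_le_mul x y
    refine this.trans ?_
    exact mul_le_mul_of_nonneg_right (le_max_left _ _) dist_nonneg
  have hsub : ∀ (ε : ℝ) (S : Set (mixedSpace K)), 0 < ε →
      Metric.thickening ε ((toMixed K) ⁻¹' S) ⊆
        (toMixed K) ⁻¹' (Metric.thickening (Lf * ε) S) := by
    intro ε S hε x hx
    obtain ⟨y, hy, hxy⟩ := Metric.mem_thickening_iff.mp hx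
    refine Metric.mem_thickening_iff.mpr ⟨toMixed K y, hy, ?_⟩
    calc dist (toMixed K x) (toMixed K y) ≤ Lf * dist x y := hlip x y
      _ < Lf * ε := mul_lt_mul_of_pos_left hxy hLf0
  have hfr : frontier ((toMixed K) ⁻¹' (normLeOne K)) =
      (toMixed K) ⁻¹' (frontier (normLeOne K)) := by
    rw [← (toMixed K).coe_toHomeomorph, ← Homeomorph.preimage_frontier]
  have hvol : ∀ (ε : ℝ), 0 < ε →
      volume (Metric.thickening ε (frontier ((toMixed K) ⁻¹' (normLeOne K)))) ≤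
        volume (Metric.thickening (Lf * ε) (frontier (normLeOne K))) := by
    intro ε hε
    rw [hfr]
    refine (measure_mono (hsub ε _ hε)).trans ?_
    rw [(volumePreserving_toMixed K).measure_preimage
      Metric.isOpen_thickening.measurableSet.nullMeasurableSet]
  have hbdd : Bornology.IsBounded (Metric.thickening Lf (frontier (normLeOne K))) :=
    ((isBounded_normLeOne K).closure.subset frontier_subset_closure).thickening
  set V : ℝ := (volume (Metric.thickening Lf (frontier (normLeOne K)))).toReal with hV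
  have hVtop : volume (Metric.thickening Lf (frontier (normLeOne K))) ≠ ⊤ :=
    hbdd.measure_lt_top.ne
  have hV0 : 0 ≤ V := ENNReal.toReal_nonneg
  refine ⟨(|C₀| + V) * Lf, fun ε hε hε1 ↦ ?_⟩
  refine (hvol ε hε).trans ?_
  by_cases hcase : Lf * ε ≤ 1
  · refine (hC₀ (Lf * ε) (mul_pos hLf0 hε) hcase).trans (ENNReal.ofReal_le_ofReal ?_)
    have : C₀ ≤ |C₀| + V := by linarith [le_abs_self C₀]
    calc C₀ * (Lf * ε) ≤ (|C₀| + V) * (Lf * ε) :=
          mul_le_mul_of_nonneg_right this (mul_pos hLf0 hε).le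
      _ = (|C₀| + V) * Lf * ε := by ring
  · rw [not_le] at hcase
    have hmono : Metric.thickening (Lf * ε) (frontier (normLeOne K)) ⊆
        Metric.thickening Lf (frontier (normLeOne K)) :=
      Metric.thickening_mono (by nlinarith) _
    refine (measure_mono hmono).trans ?_
    rw [← ENNReal.ofReal_toReal hVtop]
    refine ENNReal.ofReal_le_ofReal ?_
    have h1 : V ≤ V * (Lf * ε) := by nlinarith
    have h2 : V * (Lf * ε) ≤ (|C₀| + V) * (Lf * ε) :=
      mul_le_mul_of_nonneg_right (by linarith [abs_nonneg C₀]) (mul_pos hLf0 hε).le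
    calc V ≤ (|C₀| + V) * (Lf * ε) := h1.trans h2
      _ = (|C₀| + V) * Lf * ε := by ring

end Fermat.Agent.S14.ACNT3

namespace Fermat.Agent.S14

/-- **A-CNT3** (conditional form): ideal counting per class with an error term, from the
statements of A-CNT1 (`ACNT3.StmtCNT1`) and A-CNT2 (`ACNT3.StmtCNT2`, mixed space). -/
theorem ifaceCnt_of (h1 : ACNT3.StmtCNT1) (h2 : ACNT3.StmtCNT2) : IfaceCnt :=
  ACNT3.ifaceCnt_of_euclid h1 (ACNT3.ACNT3_euclid_of_mixed h2)

/-- **A-CNT3** (conditional form), with A-CNT2 proved in the euclidean model. -/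
theorem ifaceCnt_of' (h1 : ACNT3.StmtCNT1) (h2 : ACNT3.StmtCNT2Euclid) : IfaceCnt :=
  ACNT3.ifaceCnt_of_euclid h1 h2

end Fermat.Agent.S14
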