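import Mathlib

/-!
# Pillar P-CFT (S14), module A-CNT1, part 1: sets coverable by `O(N^k)` balls of radius `1/N`

`CNT1_Coverable s k` says that there is a constant `C` such that for every `N ≥ 1` the set `s` is
covered by at most `C * N ^ k` closed balls of radius `1 / N` ("upper box dimension at most `k`,
with finite content").  This is the regularity hypothesis on the frontier of a bounded set under
which lattice points can be counted with an error term.

Main API: monotonicity, finite unions, Lipschitz images, the unit cube of `Fin k → ℝ`.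
-/

set_option autoImplicit false

open Set Metric

namespace Fermat.Agent.S14

/-- `s` is covered by at most `C * N ^ k` closed balls of radius `1 / N`, for every `N ≥ 1`. -/
def CNT1_Coverable {E : Type*} [PseudoMetricSpace E] (s : Set E) (k : ℕ) : Prop :=
  ∃ C : ℝ, ∀ N : ℕ, 0 < N → ∃ F : Finset E, (F.card : ℝ) ≤ C * (N : ℝ) ^ k ∧
    s ⊆ ⋃ x ∈ F, closedBall x (1 / N)

section basic

variable {E : Type*} [PseudoMetricSpace E]

theorem CNT1_Coverable.mono {s t : Set E} {k : ℕ} (h : CNT1_Coverable s k) (hts : t ⊆ s) :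
    CNT1_Coverable t k := by
  obtain ⟨C, hC⟩ := h
  refine ⟨C, fun N hN ↦ ?_⟩
  obtain ⟨F, hF, hs⟩ := hC N hN
  exact ⟨F, hF, hts.trans hs⟩

theorem CNT1_coverable_empty (k : ℕ) : CNT1_Coverable (∅ : Set E) k :=
  ⟨0, fun _ _ ↦ ⟨∅, by simp, by simp⟩⟩

/-- The constant in the definition can be taken nonnegative. -/
theorem CNT1_Coverable.exists_nonneg {s : Set E} {k : ℕ} (h : CNT1_Coverable s k) :
    ∃ C : ℝ, 0 ≤ C ∧ ∀ N : ℕ, 0 < N → ∃ F : Finset E, (F.card : ℝ) ≤ C * (N : ℝ) ^ k ∧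
      s ⊆ ⋃ x ∈ F, closedBall x (1 / N) := by
  obtain ⟨C, hC⟩ := h
  refine ⟨max C 0, le_max_right _ _, fun N hN ↦ ?_⟩
  obtain ⟨F, hF, hs⟩ := hC N hN
  exact ⟨F, hF.trans (mul_le_mul_of_nonneg_right (le_max_left _ _) (by positivity)), hs⟩

theorem CNT1_Coverable.of_le {s : Set E} {k k' : ℕ} (h : CNT1_Coverable s k) (hk : k ≤ k') :
    CNT1_Coverable s k' := by
  obtain ⟨C, hC0, hC⟩ := h.exists_nonneg
  refine ⟨C, fun N hN ↦ ?_⟩
  obtain ⟨F, hF, hs⟩ := hC N hN
  refine ⟨F, hF.trans (mul_le_mul_of_nonneg_left ?_ hC0), hs⟩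
  exact pow_le_pow_right₀ (by exact_mod_cast hN) hk

theorem CNT1_Coverable.union {s t : Set E} {k : ℕ} (hs : CNT1_Coverable s k)
    (ht : CNT1_Coverable t k) : CNT1_Coverable (s ∪ t) k := by
  classical
  obtain ⟨C, hC⟩ := hs
  obtain ⟨D, hD⟩ := ht
  refine ⟨C + D, fun N hN ↦ ?_⟩
  obtain ⟨F, hF, hsF⟩ := hC N hN
  obtain ⟨G, hG, htG⟩ := hD N hN
  refine ⟨F ∪ G, ?_, ?_⟩
  · calc ((F ∪ G).card : ℝ) ≤ (F.card : ℝ) + G.card := by exact_mod_cast Finset.card_union_le F G
      _ ≤ C * (N : ℝ) ^ k + D * (N : ℝ) ^ k := add_le_add hF hG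
      _ = (C + D) * (N : ℝ) ^ k := by ring
  · rintro x (hx | hx)
    · obtain ⟨y, hy, hxy⟩ := mem_iUnion₂.mp (hsF hx)
      exact mem_iUnion₂.mpr ⟨y, Finset.mem_union_left _ hy, hxy⟩
    · obtain ⟨y, hy, hxy⟩ := mem_iUnion₂.mp (htG hx)
      exact mem_iUnion₂.mpr ⟨y, Finset.mem_union_right _ hy, hxy⟩

theorem CNT1_Coverable.biUnion_finset {ι : Type*} (I : Finset ι) {s : ι → Set E} {k : ℕ}
    (h : ∀ i ∈ I, CNT1_Coverable (s i) k) : CNT1_Coverable (⋃ i ∈ I, s i) k := by
  classical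
  induction I using Finset.induction_on with
  | empty => simpa using CNT1_coverable_empty k
  | insert a I ha ih =>
    rw [Finset.set_biUnion_insert]
    exact (h a (Finset.mem_insert_self a I)).union
      (ih fun i hi ↦ h i (Finset.mem_insert_of_mem hi))

theorem CNT1_Coverable.iUnion {ι : Type*} [Finite ι] {s : ι → Set E} {k : ℕ}
    (h : ∀ i, CNT1_Coverable (s i) k) : CNT1_Coverable (⋃ i, s i) k := by
  classical
  have := Fintype.ofFinite ι
  have := CNT1_Coverable.biUnion_finset (Finset.univ : Finset ι) (s := s) (k := k)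
    (fun i _ ↦ h i)
  simpa using this

theorem CNT1_coverable_singleton (x : E) (k : ℕ) : CNT1_Coverable ({x} : Set E) k := by
  refine ⟨1, fun N hN ↦ ⟨{x}, ?_, ?_⟩⟩
  · simp only [Finset.card_singleton, Nat.cast_one, one_mul]
    exact one_le_pow₀ (by exact_mod_cast hN)
  · simp only [Finset.mem_singleton, iUnion_iUnion_eq_left, singleton_subset_iff]
    exact mem_closedBall_self (by positivity)

theorem CNT1_Coverable.of_finite {s : Set E} (hs : s.Finite) (k : ℕ) : CNT1_Coverable s k := by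
  have : s = ⋃ x ∈ hs.toFinset, ({x} : Set E) := by
    ext y; simp
  rw [this]
  exact CNT1_Coverable.biUnion_finset _ fun x _ ↦ CNT1_coverable_singleton x k

end basic

section image

variable {E F : Type*} [PseudoMetricSpace E] [PseudoMetricSpace F]

/-- The image of a coverable set under a map which is Lipschitz on it is coverable. -/
theorem CNT1_Coverable.image {s : Set E} {k : ℕ} (h : CNT1_Coverable s k) {K : NNReal}
    {f : E → F} (hf : LipschitzOnWith K f s) : CNT1_Coverable (f '' s) k := by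
  classical
  obtain ⟨C, hC0, hC⟩ := h.exists_nonneg
  -- we use the covering of `s` at scale `1 / (M * N)` with `M ≥ 2 K`
  obtain ⟨M, hM⟩ := exists_nat_gt (2 * (K : ℝ))
  have hM0 : 0 < M := by
    have : (0 : ℝ) < M := lt_of_le_of_lt (by positivity) hM
    exact_mod_cast this
  refine ⟨C * (M : ℝ) ^ k, fun N hN ↦ ?_⟩
  obtain ⟨G, hG, hsG⟩ := hC (M * N) (Nat.mul_pos hM0 hN)
  -- for each centre `x` whose ball meets `s`, choose a point of `s` in the ball
  let pick : E → E := fun x ↦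
    if hx : (closedBall x (1 / ((M * N : ℕ) : ℝ)) ∩ s).Nonempty then hx.some else x
  refine ⟨G.image (fun x ↦ f (pick x)), ?_, ?_⟩
  · calc ((G.image (fun x ↦ f (pick x))).card : ℝ) ≤ G.card := by
          exact_mod_cast Finset.card_image_le
      _ ≤ C * ((M * N : ℕ) : ℝ) ^ k := hG
      _ = C * (M : ℝ) ^ k * (N : ℝ) ^ k := by push_cast; ring
  · rintro _ ⟨y, hy, rfl⟩
    obtain ⟨x, hx, hyx⟩ := mem_iUnion₂.mp (hsG hy)
    have hne : (closedBall x (1 / ((M * N : ℕ) : ℝ)) ∩ s).Nonempty := ⟨y, hyx, hy⟩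
    have hpick : pick x = hne.some := dif_pos hne
    have hp1 : pick x ∈ closedBall x (1 / ((M * N : ℕ) : ℝ)) := hpick ▸ hne.some_mem.1
    have hp2 : pick x ∈ s := hpick ▸ hne.some_mem.2
    refine mem_iUnion₂.mpr ⟨f (pick x), Finset.mem_image_of_mem _ hx, ?_⟩
    rw [mem_closedBall]
    have hMN : (0 : ℝ) < ((M * N : ℕ) : ℝ) := by exact_mod_cast Nat.mul_pos hM0 hN
    have hN' : (0 : ℝ) < N := by exact_mod_cast hN
    have hM' : (0 : ℝ) < M := by exact_mod_cast hM0
    have hd : dist y (pick x) ≤ 2 / ((M * N : ℕ) : ℝ) := by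
      calc dist y (pick x) ≤ dist y x + dist x (pick x) := dist_triangle _ _ _
        _ ≤ 1 / ((M * N : ℕ) : ℝ) + 1 / ((M * N : ℕ) : ℝ) :=
            add_le_add (mem_closedBall.mp hyx) (by rw [dist_comm]; exact mem_closedBall.mp hp1)
        _ = 2 / ((M * N : ℕ) : ℝ) := by ring
    calc dist (f y) (f (pick x)) ≤ K * dist y (pick x) := hf.dist_le_mul y hy _ hp2
      _ ≤ K * (2 / ((M * N : ℕ) : ℝ)) := mul_le_mul_of_nonneg_left hd (by positivity)
      _ = (2 * K) / M * (1 / N) := by push_cast; field_simp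
      _ ≤ 1 * (1 / N) := by
          apply mul_le_mul_of_nonneg_right _ (by positivity)
          rw [div_le_one hM']
          exact hM.le
      _ = 1 / N := one_mul _

theorem CNT1_Coverable.image_of_lipschitzWith {s : Set E} {k : ℕ} (h : CNT1_Coverable s k)
    {K : NNReal} {f : E → F} (hf : LipschitzWith K f) : CNT1_Coverable (f '' s) k :=
  h.image (hf.lipschitzOnWith (s := s))

end image

section cube

/-- The unit cube of `ι → ℝ` (sup metric) is covered by `(N + 1) ^ card ι ≤ 2 ^ card ι * N ^ card ι`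
balls of radius `1 / N`. -/
theorem CNT1_coverable_Icc (ι : Type*) [Fintype ι] :
    CNT1_Coverable (Icc (0 : ι → ℝ) 1) (Fintype.card ι) := by
  classical
  refine ⟨(2 : ℝ) ^ Fintype.card ι, fun N hN ↦ ?_⟩
  have hN' : (0 : ℝ) < N := by exact_mod_cast hN
  -- grid points `(j i / N)_i`, `j i ∈ {0, …, N}`
  let G : Finset (ι → ℝ) :=
    (Fintype.piFinset fun _ : ι ↦ Finset.range (N + 1)).image fun j i ↦ (j i : ℝ) / N
  refine ⟨G, ?_, ?_⟩
  · calc (G.card : ℝ) ≤ ((Fintype.piFinset fun _ : ι ↦ Finset.range (N + 1)).card : ℝ) := by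
          exact_mod_cast Finset.card_image_le
      _ = ((N : ℝ) + 1) ^ Fintype.card ι := by
          rw [Fintype.card_piFinset]; simp
      _ ≤ (2 * (N : ℝ)) ^ Fintype.card ι := by
          apply pow_le_pow_left₀ (by positivity)
          have : (1 : ℝ) ≤ N := by exact_mod_cast hN
          linarith
      _ = 2 ^ Fintype.card ι * (N : ℝ) ^ Fintype.card ι := mul_pow _ _ _
  · intro x hx
    rw [mem_Icc] at hx
    have hx0 : ∀ i, 0 ≤ x i := fun i ↦ hx.1 i
    have hx1 : ∀ i, x i ≤ 1 := fun i ↦ hx.2 i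
    refine mem_iUnion₂.mpr ⟨fun i ↦ (⌊(N : ℝ) * x i⌋₊ : ℝ) / N, ?_, ?_⟩
    · refine Finset.mem_image.mpr ⟨fun i ↦ ⌊(N : ℝ) * x i⌋₊, ?_, rfl⟩
      rw [Fintype.mem_piFinset]
      intro i
      rw [Finset.mem_range, Nat.lt_succ_iff]
      apply Nat.floor_le_of_le
      calc (N : ℝ) * x i ≤ N * 1 := mul_le_mul_of_nonneg_left (hx1 i) hN'.le
        _ = N := mul_one _
    · rw [mem_closedBall, dist_pi_le_iff (by positivity)]
      intro i
      rw [Real.dist_eq]
      have h1 : (⌊(N : ℝ) * x i⌋₊ : ℝ) ≤ N * x i :=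
        Nat.floor_le (mul_nonneg hN'.le (hx0 i))
      have h2 : (N : ℝ) * x i < ⌊(N : ℝ) * x i⌋₊ + 1 := Nat.lt_floor_add_one _
      have h3 : x i - (⌊(N : ℝ) * x i⌋₊ : ℝ) / N = ((N : ℝ) * x i - ⌊(N : ℝ) * x i⌋₊) / N := by
        field_simp
      rw [h3, abs_of_nonneg (div_nonneg (by linarith) hN'.le)]
      apply div_le_div_of_nonneg_right _ hN'.le
      linarith

/-- A Lipschitz image of the unit cube of `Fin k → ℝ` is `k`-coverable. -/
theorem CNT1_coverable_image_Icc {F : Type*} [PseudoMetricSpace F] {k : ℕ} {K : NNReal}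
    {f : (Fin k → ℝ) → F} (hf : LipschitzOnWith K f (Icc 0 1)) :
    CNT1_Coverable (f '' Icc 0 1) k := by
  have := (CNT1_coverable_Icc (Fin k)).image hf
  simpa using this

end cube

section volume

open MeasureTheory Module

variable {E : Type*} [NormedAddCommGroup E] [NormedSpace ℝ E] [FiniteDimensional ℝ E]
  [MeasurableSpace E] [BorelSpace E]

/-- The `ε`-thickening of a `k`-coverable set in a space of dimension `k + 1` has volume
`O(ε)`. -/
theorem CNT1_Coverable.volume_thickening_le (μ : Measure E) [μ.IsAddHaarMeasure] {S : Set E}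
    {k : ℕ} (h : CNT1_Coverable S k) (hk : k + 1 = finrank ℝ E) :
    ∃ C₀ : ℝ, ∀ ε : ℝ, 0 < ε → ε ≤ 1 →
      μ (thickening ε S) ≤ ENNReal.ofReal (C₀ * ε) := by
  classical
  obtain ⟨C, hC0, hC⟩ := h.exists_nonneg
  set v : ℝ := μ.real (closedBall (0 : E) 1) with hv
  have hv0 : 0 ≤ v := measureReal_nonneg
  refine ⟨C * 2 ^ (2 * k + 1) * v, fun ε hε hε1 ↦ ?_⟩
  set N : ℕ := ⌈1 / ε⌉₊ with hN
  have hNpos : 0 < N := Nat.ceil_pos.mpr (by positivity)
  have hN' : (0 : ℝ) < N := by exact_mod_cast hNpos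
  have hN1 : 1 / (N : ℝ) ≤ ε := by
    rw [div_le_iff₀ hN']
    have := Nat.le_ceil (1 / ε)
    calc (1 : ℝ) = ε * (1 / ε) := by field_simp
      _ ≤ ε * N := mul_le_mul_of_nonneg_left this hε.le
  have hN2 : (N : ℝ) ≤ 2 / ε := by
    have h1 : (N : ℝ) < 1 / ε + 1 := Nat.ceil_lt_add_one (by positivity)
    have h2 : (1 : ℝ) ≤ 1 / ε := by rw [le_div_iff₀ hε]; linarith
    have h3 : 2 / ε = 1 / ε + 1 / ε := by ring
    linarith
  obtain ⟨G, hG, hSG⟩ := hC N hNpos
  have hsub : thickening ε S ⊆ ⋃ x ∈ G, closedBall x (2 * ε) := by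
    intro y hy
    obtain ⟨z, hz, hyz⟩ := mem_thickening_iff.mp hy
    obtain ⟨x, hx, hzx⟩ := mem_iUnion₂.mp (hSG hz)
    refine mem_iUnion₂.mpr ⟨x, hx, ?_⟩
    rw [mem_closedBall] at hzx ⊢
    calc dist y x ≤ dist y z + dist z x := dist_triangle _ _ _
      _ ≤ ε + 1 / N := add_le_add hyz.le hzx
      _ ≤ 2 * ε := by linarith
  have hball : ∀ x ∈ G, μ (closedBall x (2 * ε)) = ENNReal.ofReal ((2 * ε) ^ finrank ℝ E * v) := by
    intro x _
    rw [Measure.addHaar_closedBall' μ x (by positivity), hv, measureReal_def,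
      ENNReal.ofReal_mul (by positivity), ENNReal.ofReal_toReal]
    exact (isCompact_closedBall (0 : E) 1).measure_lt_top.ne
  calc μ (thickening ε S) ≤ μ (⋃ x ∈ G, closedBall x (2 * ε)) := measure_mono hsub
    _ ≤ ∑ x ∈ G, μ (closedBall x (2 * ε)) := measure_biUnion_finset_le _ _
    _ = ∑ _x ∈ G, ENNReal.ofReal ((2 * ε) ^ finrank ℝ E * v) := Finset.sum_congr rfl hball
    _ = (G.card : ENNReal) * ENNReal.ofReal ((2 * ε) ^ finrank ℝ E * v) := by
        rw [Finset.sum_const, nsmul_eq_mul]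
    _ = ENNReal.ofReal ((G.card : ℝ) * ((2 * ε) ^ finrank ℝ E * v)) := by
        rw [ENNReal.ofReal_mul (Nat.cast_nonneg G.card), ENNReal.ofReal_natCast]
    _ ≤ ENNReal.ofReal (C * 2 ^ (2 * k + 1) * v * ε) := by
        apply ENNReal.ofReal_le_ofReal
        rw [← hk]
        have h1 : (G.card : ℝ) ≤ C * (2 / ε) ^ k :=
          hG.trans (mul_le_mul_of_nonneg_left (pow_le_pow_left₀ hN'.le hN2 k) hC0)
        calc (G.card : ℝ) * ((2 * ε) ^ (k + 1) * v)
            ≤ C * (2 / ε) ^ k * ((2 * ε) ^ (k + 1) * v) :=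
              mul_le_mul_of_nonneg_right h1 (by positivity)
          _ = C * 2 ^ (2 * k + 1) * v * ε := by
              have hεk : ε ^ k ≠ 0 := pow_ne_zero _ hε.ne'
              rw [div_pow, mul_pow, pow_succ ε k]
              field_simp
              ring

end volume

end Fermat.Agent.S14
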