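import Mathlib
import Fermat.Agent.S14.ACount.Coverable

/-!
# Pillar P-CFT (S14), module A-CNT1, part 2: lattice points versus volume at a fixed scale

For a `ℤ`-lattice `L` in a finite-dimensional real inner product space `E` there is `δ > 0` such
that for every bounded measurable set `A`

  `| #(A ∩ L) * covolume L - volume A | ≤ volume (thickening δ (frontier A))`.

Proof: let `P` be the fundamental parallelepiped of a basis of `L`, and `U` the union of the cells
`ℓ + P`, `ℓ ∈ A ∩ L`.  Then `volume U = #(A ∩ L) * covolume L`, and every point of the symmetric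
difference of `U` and `A` lies in a cell `ℓ + P` such that exactly one of `ℓ`, `x` is in `A`; the
segment from `ℓ` to `x` then meets the frontier of `A`.
-/

set_option autoImplicit false

open Set Metric MeasureTheory Module Submodule

namespace Fermat.Agent.S14

section connected

/-- A preconnected set meeting `s` and its complement meets the frontier of `s`. -/
theorem CNT1_inter_frontier_nonempty {α : Type*} [TopologicalSpace α] {T s : Set α}
    (hT : IsPreconnected T) (h1 : (T ∩ s).Nonempty) (h2 : (T ∩ sᶜ).Nonempty) :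
    (T ∩ frontier s).Nonempty := by
  by_contra hne
  rw [not_nonempty_iff_eq_empty] at hne
  have hsub : T ⊆ interior s ∪ interior sᶜ := by
    intro x hx
    by_cases hxs : x ∈ interior s
    · exact Or.inl hxs
    · right
      rw [interior_compl]
      intro hxc
      have : x ∈ T ∩ frontier s := ⟨hx, hxc, hxs⟩
      rw [hne] at this
      exact this
  have hdisj : Disjoint (interior s) (interior sᶜ) :=
    (disjoint_compl_right (a := s)).mono interior_subset interior_subset
  rcases hT.subset_or_subset isOpen_interior isOpen_interior hdisj hsub with h | h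
  · obtain ⟨x, hxT, hxs⟩ := h2
    exact hxs (interior_subset (h hxT))
  · obtain ⟨x, hxT, hxs⟩ := h1
    exact (interior_subset (h hxT)) hxs

/-- If exactly one of `a`, `x` lies in `A`, then there is a point of the frontier of `A` at
distance at most `dist x a` from `x`. -/
theorem CNT1_exists_frontier_near {E : Type*} [NormedAddCommGroup E] [NormedSpace ℝ E]
    {A : Set E} {a x : E} (h : (a ∈ A ∧ x ∉ A) ∨ (a ∉ A ∧ x ∈ A)) :
    ∃ y ∈ frontier A, dist x y ≤ dist x a := by
  have hconn : IsPreconnected (segment ℝ a x) := (convex_segment a x).isPreconnected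
  have hne : (segment ℝ a x ∩ frontier A).Nonempty := by
    rcases h with ⟨ha, hx⟩ | ⟨ha, hx⟩
    · exact CNT1_inter_frontier_nonempty hconn ⟨a, left_mem_segment ℝ a x, ha⟩
        ⟨x, right_mem_segment ℝ a x, hx⟩
    · exact CNT1_inter_frontier_nonempty hconn ⟨x, right_mem_segment ℝ a x, hx⟩
        ⟨a, left_mem_segment ℝ a x, ha⟩
  obtain ⟨y, hy, hyf⟩ := hne
  refine ⟨y, hyf, ?_⟩
  have := dist_add_dist_of_mem_segment hy
  rw [dist_comm x y, dist_comm x a]
  linarith [dist_nonneg (x := a) (y := y)]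

end connected

section lattice

variable {E : Type*} [NormedAddCommGroup E] [NormedSpace ℝ E] [FiniteDimensional ℝ E]
  [MeasurableSpace E] [BorelSpace E]

/-- **Lattice points versus volume at a fixed scale.** -/
theorem CNT1_card_mul_covolume_sub_le (μ : Measure E) [μ.IsAddHaarMeasure]
    (L : Submodule ℤ E) [DiscreteTopology L] [IsZLattice ℝ L] :
    ∃ δ : ℝ, 0 < δ ∧ ∀ A : Set E, Bornology.IsBounded A → MeasurableSet A →
      |(Nat.card (A ∩ L : Set E) : ℝ) * ZLattice.covolume L μ - μ.real A| ≤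
        μ.real (thickening δ (frontier A)) := by
  classical
  set b := Module.Free.chooseBasis ℤ L with hb
  set bR := b.ofZLatticeBasis ℝ L with hbR
  have hspan : span ℤ (Set.range bR) = L := b.ofZLatticeBasis_span ℝ
  set P : Set E := ZSpan.fundamentalDomain bR with hP
  have hPmeas : MeasurableSet P := ZSpan.fundamentalDomain_measurableSet bR
  have hPbdd : Bornology.IsBounded P := ZSpan.fundamentalDomain_isBounded bR
  have hPvol : ZLattice.covolume L μ = μ.real P :=
    ZLattice.covolume_eq_measure_fundamentalDomain L μ (ZLattice.isAddFundamentalDomain b μ)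
  set δ₀ : ℝ := ∑ i, ‖bR i‖ with hδ₀
  have hδ₀0 : 0 ≤ δ₀ := Finset.sum_nonneg fun _ _ ↦ norm_nonneg _
  have hPnorm : ∀ p ∈ P, ‖p‖ ≤ δ₀ := by
    intro p hp
    have := ZSpan.norm_fract_le bR p
    rwa [(ZSpan.fract_eq_self (b := bR)).mpr hp] at this
  -- every point lies in a unique cell
  have hcell : ∀ x : E, ∃ ℓ ∈ L, x - ℓ ∈ P := by
    intro x
    refine ⟨(ZSpan.floor bR x : E), hspan.le (ZSpan.floor bR x).2, ?_⟩
    exact ZSpan.fract_mem_fundamentalDomain bR x
  have huniq : ∀ x : E, ∀ ℓ ∈ L, ∀ ℓ' ∈ L, x - ℓ ∈ P → x - ℓ' ∈ P → ℓ = ℓ' := by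
    intro x ℓ hℓ ℓ' hℓ' h h'
    have hℓs : -ℓ ∈ span ℤ (Set.range bR) := hspan.ge (L.neg_mem hℓ)
    have hℓ's : -ℓ' ∈ span ℤ (Set.range bR) := hspan.ge (L.neg_mem hℓ')
    obtain ⟨v, -, hv⟩ := ZSpan.exist_unique_vadd_mem_fundamentalDomain bR x
    have e1 := hv ⟨-ℓ, hℓs⟩ (by
      show (-ℓ) + x ∈ P
      rwa [neg_add_eq_sub])
    have e2 := hv ⟨-ℓ', hℓ's⟩ (by
      show (-ℓ') + x ∈ P
      rwa [neg_add_eq_sub])
    have := congrArg Subtype.val (e1.trans e2.symm)
    simpa using this
  refine ⟨δ₀ + 1, by linarith, fun A hA hAm ↦ ?_⟩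
  -- the lattice points of `A`
  have hfin : (A ∩ L : Set E).Finite := by
    have := ZSpan.setFinite_inter bR hA
    rwa [hspan] at this
  set T : Finset E := hfin.toFinset with hT
  have hTmem : ∀ ℓ, ℓ ∈ T ↔ ℓ ∈ A ∧ ℓ ∈ L := by
    intro ℓ
    rw [hT, Set.Finite.mem_toFinset]
    rfl
  have hcard : Nat.card (A ∩ L : Set E) = T.card := by
    rw [Nat.card_coe_set_eq, Set.ncard_eq_toFinset_card _ hfin]
  -- the union of the cells attached to the lattice points of `A`
  set cell : E → Set E := fun ℓ ↦ (fun x ↦ ℓ + x) '' P with hcelldef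
  have hmem_cell : ∀ ℓ x, x ∈ cell ℓ ↔ x - ℓ ∈ P := by
    intro ℓ x
    constructor
    · rintro ⟨p, hp, rfl⟩
      simpa using hp
    · intro h
      exact ⟨x - ℓ, h, by simp⟩
  have hcellmeas : ∀ ℓ, MeasurableSet (cell ℓ) := by
    intro ℓ
    have : cell ℓ = (fun x ↦ -ℓ + x) ⁻¹' P := by
      ext x
      rw [hmem_cell, Set.mem_preimage, neg_add_eq_sub]
    rw [this]
    exact (measurable_const_add _) hPmeas
  have hcellvol : ∀ ℓ, μ (cell ℓ) = μ P := by
    intro ℓ
    have : cell ℓ = (fun x ↦ -ℓ + x) ⁻¹' P := by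
      ext x
      rw [hmem_cell, Set.mem_preimage, neg_add_eq_sub]
    rw [this, measure_preimage_add]
  set U : Set E := ⋃ ℓ ∈ T, cell ℓ with hU
  have hUmeas : MeasurableSet U := Finset.measurableSet_biUnion _ fun ℓ _ ↦ hcellmeas ℓ
  have hPfin : μ P ≠ ⊤ := hPbdd.measure_lt_top.ne
  have hUvol : μ U = (T.card : ENNReal) * μ P := by
    rw [hU, measure_biUnion_finset]
    · rw [Finset.sum_congr rfl fun ℓ _ ↦ hcellvol ℓ, Finset.sum_const, nsmul_eq_mul]
    · intro ℓ hℓ ℓ' hℓ' hne
      rw [Function.onFun, Set.disjoint_left]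
      intro x hx hx'
      rw [hmem_cell] at hx hx'
      exact hne (huniq x ℓ ((hTmem ℓ).mp hℓ).2 ℓ' ((hTmem ℓ').mp hℓ').2 hx hx')
    · exact fun ℓ _ ↦ hcellmeas ℓ
  have hUfin : μ U ≠ ⊤ := by
    rw [hUvol]
    exact ENNReal.mul_ne_top (ENNReal.natCast_ne_top _) hPfin
  have hAfin : μ A ≠ ⊤ := hA.measure_lt_top.ne
  have hUreal : μ.real U = (T.card : ℝ) * μ.real P := by
    rw [measureReal_def, hUvol, ENNReal.toReal_mul, ENNReal.toReal_natCast, measureReal_def]
  -- the symmetric difference is contained in the thickening of the frontier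
  have hsub : symmDiff U A ⊆ thickening (δ₀ + 1) (frontier A) := by
    rintro x (⟨hxU, hxA⟩ | ⟨hxA, hxU⟩)
    · obtain ⟨ℓ, hℓT, hxℓ⟩ := mem_iUnion₂.mp hxU
      rw [hmem_cell] at hxℓ
      obtain ⟨y, hy, hxy⟩ := CNT1_exists_frontier_near
        (A := A) (a := ℓ) (x := x) (Or.inl ⟨((hTmem ℓ).mp hℓT).1, hxA⟩)
      rw [mem_thickening_iff]
      refine ⟨y, hy, lt_of_le_of_lt hxy ?_⟩
      rw [dist_eq_norm]
      linarith [hPnorm _ hxℓ]
    · obtain ⟨ℓ, hℓL, hxℓ⟩ := hcell x
      have hℓA : ℓ ∉ A := by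
        intro hℓA
        exact hxU (mem_iUnion₂.mpr ⟨ℓ, (hTmem ℓ).mpr ⟨hℓA, hℓL⟩, (hmem_cell ℓ x).mpr hxℓ⟩)
      obtain ⟨y, hy, hxy⟩ := CNT1_exists_frontier_near
        (A := A) (a := ℓ) (x := x) (Or.inr ⟨hℓA, hxA⟩)
      rw [mem_thickening_iff]
      refine ⟨y, hy, lt_of_le_of_lt hxy ?_⟩
      rw [dist_eq_norm]
      linarith [hPnorm _ hxℓ]
  have hThfin : μ (thickening (δ₀ + 1) (frontier A)) ≠ ⊤ :=
    ((hA.closure.subset frontier_subset_closure).thickening).measure_lt_top.ne
  rw [hcard, hPvol, ← hUreal]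
  calc |μ.real U - μ.real A| ≤ μ.real (symmDiff U A) :=
        abs_measureReal_sub_le_measureReal_symmDiff' hUmeas.nullMeasurableSet
          hAm.nullMeasurableSet hUfin hAfin
    _ ≤ μ.real (thickening (δ₀ + 1) (frontier A)) := measureReal_mono hsub hThfin

end lattice

end Fermat.Agent.S14
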