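import Mathlib
import Fermat.Agent.S14.ACount.Coverable
import Fermat.Agent.S14.ACount.LatticeCore

/-!
# Pillar P-CFT (S14), module A-CNT1: lattice points in a dilated region, with an error term

* `card_le_sub_le` : the quantitative version of Mathlib's
  `ZLattice.covolume.tendsto_card_le_div'`: if the `ε`-thickening of the frontier of
  `D = {x ∈ X | F x ≤ 1}` has volume `O(ε)`, then
  `#({x ∈ X | F x ≤ c} ∩ L) = c * volume D / covolume L + O(c ^ (1 - 1/d))`.
* `CNT1_card_smul_sub_le` : the same for the dilates `t • D` of an arbitrary bounded measurable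
  set `D`.
* `volume_thickening_lipschitz_image_le` : the `ε`-thickening of a Lipschitz image of the unit
  cube of dimension `d - 1` has volume `O(ε)`.
-/

set_option autoImplicit false

open Set Metric MeasureTheory Module Submodule Pointwise

namespace Fermat.Agent.S14

section scaling

variable {E : Type*} [NormedAddCommGroup E] [NormedSpace ℝ E]

theorem CNT1_frontier_smul_subset {t : ℝ} (ht : t ≠ 0) (D : Set E) :
    frontier (t • D) ⊆ t • frontier D := by
  have h := (Homeomorph.smulOfNeZero t ht).image_frontier D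
  have e : ∀ S : Set E, (Homeomorph.smulOfNeZero t ht) '' S = t • S := fun S ↦ by
    ext x
    simp [Set.mem_smul_set]
  rw [e, e] at h
  exact h.ge

theorem CNT1_thickening_smul_subset {t : ℝ} (ht : 0 < t) (δ : ℝ) (S : Set E) :
    thickening δ (t • S) ⊆ t • thickening (δ / t) S := by
  intro x hx
  obtain ⟨z, hz, hxz⟩ := mem_thickening_iff.mp hx
  obtain ⟨s, hs, rfl⟩ := Set.mem_smul_set.mp hz
  refine Set.mem_smul_set.mpr ⟨t⁻¹ • x, ?_, by rw [smul_inv_smul₀ ht.ne']⟩
  rw [mem_thickening_iff]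
  refine ⟨s, hs, ?_⟩
  have : dist (t⁻¹ • x) s = t⁻¹ * dist x (t • s) := by
    conv_lhs => rw [← inv_smul_smul₀ ht.ne' s]
    rw [dist_smul₀, Real.norm_eq_abs, abs_of_pos (inv_pos.mpr ht)]
  rw [this, div_eq_inv_mul]
  exact mul_lt_mul_of_pos_left hxz (inv_pos.mpr ht)

end scaling

section count

variable {E : Type*} [NormedAddCommGroup E] [NormedSpace ℝ E] [FiniteDimensional ℝ E]
  [MeasurableSpace E] [BorelSpace E]

/-- **Lattice points in the dilates of a bounded set, with an error term.** -/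
theorem CNT1_card_smul_sub_le (μ : Measure E) [μ.IsAddHaarMeasure]
    (L : Submodule ℤ E) [DiscreteTopology L] [IsZLattice ℝ L] {D : Set E}
    (hD : Bornology.IsBounded D) (hDm : MeasurableSet D)
    (h₄ : ∃ C₀ : ℝ, ∀ ε : ℝ, 0 < ε → ε ≤ 1 →
      μ (thickening ε (frontier D)) ≤ ENNReal.ofReal (C₀ * ε)) :
    ∃ C : ℝ, 0 ≤ C ∧ ∀ t : ℝ, 1 ≤ t →
      |(Nat.card ((t • D) ∩ L : Set E) : ℝ) -
          t ^ finrank ℝ E * (μ.real D / ZLattice.covolume L μ)| ≤
        C * t ^ (finrank ℝ E - 1) := by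
  obtain ⟨δ, hδ, hcore⟩ := CNT1_card_mul_covolume_sub_le μ L
  obtain ⟨C₀, hC₀⟩ := h₄
  set C₁ : ℝ := max C₀ 0 with hC₁
  have hC₁0 : 0 ≤ C₁ := le_max_right _ _
  have hC₁' : ∀ ε : ℝ, 0 < ε → ε ≤ 1 →
      μ (thickening ε (frontier D)) ≤ ENNReal.ofReal (C₁ * ε) := fun ε hε hε1 ↦
    (hC₀ ε hε hε1).trans (ENNReal.ofReal_le_ofReal
      (mul_le_mul_of_nonneg_right (le_max_left _ _) hε.le))
  have hcov : 0 < ZLattice.covolume L μ := ZLattice.covolume_pos L μ
  -- a bound for the closure of `D`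
  obtain ⟨R, hR0, hR⟩ : ∃ R : ℝ, 0 ≤ R ∧ frontier D ⊆ closedBall 0 R := by
    obtain ⟨R, hR⟩ := (hD.closure.subset frontier_subset_closure).subset_closedBall 0
    exact ⟨max R 0, le_max_right _ _, hR.trans (closedBall_subset_closedBall (le_max_left _ _))⟩
  set M : ℝ := μ.real (ball (0 : E) (δ * R + δ)) with hM
  have hM0 : 0 ≤ M := measureReal_nonneg
  refine ⟨max (C₁ * δ) M / ZLattice.covolume L μ, by positivity, fun t ht ↦ ?_⟩
  have ht0 : 0 < t := lt_of_lt_of_le one_pos ht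
  have htD : Bornology.IsBounded (t • D) := hD.smul₀ t
  have htDm : MeasurableSet (t • D) := hDm.const_smul₀ t
  have hkey := hcore (t • D) htD htDm
  have hvol : μ.real (t • D) = t ^ finrank ℝ E * μ.real D := by
    rw [measureReal_def, Measure.addHaar_smul_of_nonneg μ ht0.le, ENNReal.toReal_mul,
      ENNReal.toReal_ofReal (by positivity), measureReal_def]
  -- the volume of the thickened frontier
  have hTh : μ.real (thickening δ (frontier (t • D))) ≤
      max (C₁ * δ) M * t ^ (finrank ℝ E - 1) := by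
    have hpow1 : (1 : ℝ) ≤ t ^ (finrank ℝ E - 1) := one_le_pow₀ ht
    rcases le_or_gt δ t with hδt | hδt
    · -- `δ / t ≤ 1`
      have hε : 0 < δ / t := div_pos hδ ht0
      have hε1 : δ / t ≤ 1 := (div_le_one ht0).mpr hδt
      have hsub : thickening δ (frontier (t • D)) ⊆ t • thickening (δ / t) (frontier D) :=
        (thickening_subset_of_subset δ (CNT1_frontier_smul_subset ht0.ne' D)).trans
          (CNT1_thickening_smul_subset ht0 δ _)
      have h1 : μ (thickening δ (frontier (t • D))) ≤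
          ENNReal.ofReal (t ^ finrank ℝ E * (C₁ * (δ / t))) := by
        calc μ (thickening δ (frontier (t • D)))
            ≤ μ (t • thickening (δ / t) (frontier D)) := measure_mono hsub
          _ = ENNReal.ofReal (t ^ finrank ℝ E) * μ (thickening (δ / t) (frontier D)) :=
              Measure.addHaar_smul_of_nonneg μ ht0.le _
          _ ≤ ENNReal.ofReal (t ^ finrank ℝ E) * ENNReal.ofReal (C₁ * (δ / t)) := by
              gcongr
              exact hC₁' _ hε hε1
          _ = ENNReal.ofReal (t ^ finrank ℝ E * (C₁ * (δ / t))) :=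
              (ENNReal.ofReal_mul (by positivity)).symm
      have h2 : μ.real (thickening δ (frontier (t • D))) ≤ t ^ finrank ℝ E * (C₁ * (δ / t)) := by
        rw [measureReal_def]
        exact ENNReal.toReal_le_of_le_ofReal (by positivity) h1
      have hd : 0 < finrank ℝ E ∨ finrank ℝ E = 0 := (Nat.eq_zero_or_pos _).symm
      have h3 : t ^ finrank ℝ E * (C₁ * (δ / t)) ≤ C₁ * δ * t ^ (finrank ℝ E - 1) := by
        rcases Nat.eq_zero_or_pos (finrank ℝ E) with h0 | hpos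
        · rw [h0]
          simp only [pow_zero, one_mul, Nat.zero_sub, mul_one]
          apply mul_le_mul_of_nonneg_left _ hC₁0
          exact div_le_self hδ.le ht
        · obtain ⟨m, hm⟩ := Nat.exists_eq_succ_of_ne_zero hpos.ne'
          rw [hm, Nat.succ_sub_one, pow_succ]
          apply le_of_eq
          field_simp
      calc μ.real (thickening δ (frontier (t • D))) ≤ C₁ * δ * t ^ (finrank ℝ E - 1) :=
            h2.trans h3
        _ ≤ max (C₁ * δ) M * t ^ (finrank ℝ E - 1) :=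
            mul_le_mul_of_nonneg_right (le_max_left _ _) (by positivity)
    · -- `t < δ`: trivial bound
      have hsub : thickening δ (frontier (t • D)) ⊆ ball (0 : E) (δ * R + δ) := by
        intro x hx
        obtain ⟨z, hz, hxz⟩ := mem_thickening_iff.mp hx
        obtain ⟨s, hs, rfl⟩ := Set.mem_smul_set.mp (CNT1_frontier_smul_subset ht0.ne' D hz)
        have hsR : ‖s‖ ≤ R := by simpa using hR hs
        rw [mem_ball_zero_iff]
        have h1 : ‖t • s‖ ≤ δ * R := by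
          rw [norm_smul, Real.norm_eq_abs, abs_of_pos ht0]
          exact mul_le_mul hδt.le hsR (norm_nonneg _) hδ.le
        have h2 : ‖x‖ ≤ ‖x - t • s‖ + ‖t • s‖ := by
          simpa using norm_add_le (x - t • s) (t • s)
        rw [dist_eq_norm] at hxz
        linarith
      have hfin : μ (ball (0 : E) (δ * R + δ)) ≠ ⊤ := measure_ball_lt_top.ne
      calc μ.real (thickening δ (frontier (t • D))) ≤ M := measureReal_mono hsub hfin
        _ ≤ max (C₁ * δ) M * 1 := by rw [mul_one]; exact le_max_right _ _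
        _ ≤ max (C₁ * δ) M * t ^ (finrank ℝ E - 1) :=
            mul_le_mul_of_nonneg_left hpow1 (by positivity)
  have hfinal : |(Nat.card ((t • D) ∩ L : Set E) : ℝ) * ZLattice.covolume L μ -
      t ^ finrank ℝ E * μ.real D| ≤ max (C₁ * δ) M * t ^ (finrank ℝ E - 1) := by
    rw [← hvol]
    exact hkey.trans hTh
  have hrew : (Nat.card ((t • D) ∩ L : Set E) : ℝ) -
      t ^ finrank ℝ E * (μ.real D / ZLattice.covolume L μ) =
      ((Nat.card ((t • D) ∩ L : Set E) : ℝ) * ZLattice.covolume L μ -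
        t ^ finrank ℝ E * μ.real D) / ZLattice.covolume L μ := by
    field_simp
  rw [hrew, abs_div, abs_of_pos hcov, div_mul_eq_mul_div, div_le_div_iff_of_pos_right hcov]
  exact hfinal

end count

section final

variable {E : Type*} [NormedAddCommGroup E] [InnerProductSpace ℝ E] [FiniteDimensional ℝ E]
  [MeasurableSpace E] [BorelSpace E]

theorem CNT1_smul_setOf_le {X : Set E} (n : ℕ)
    (hX : ∀ ⦃x⦄ ⦃r : ℝ⦄, x ∈ X → 0 < r → r • x ∈ X)
    {F : E → ℝ} (hF₁ : ∀ x ⦃r : ℝ⦄, 0 ≤ r → F (r • x) = r ^ n * (F x)) {c : ℝ} (hc : 0 < c) :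
    c • {x ∈ X | F x ≤ 1} = {x ∈ X | F x ≤ c ^ n} := by
  ext x
  rw [Set.mem_smul_set_iff_inv_smul_mem₀ hc.ne']
  constructor
  · rintro ⟨h1, h2⟩
    refine ⟨(smul_inv_smul₀ hc.ne' x) ▸ hX h1 hc, ?_⟩
    rw [hF₁ _ (inv_pos.mpr hc).le, inv_pow, inv_mul_le_iff₀ (pow_pos hc _), mul_one] at h2
    exact h2
  · rintro ⟨h1, h2⟩
    refine ⟨hX h1 (inv_pos.mpr hc), ?_⟩
    rw [hF₁ _ (inv_pos.mpr hc).le, inv_pow, inv_mul_le_iff₀ (pow_pos hc _), mul_one]
    exact h2

/-- **A-CNT1**: the quantitative version of `ZLattice.covolume.tendsto_card_le_div'`. -/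
theorem card_le_sub_le [Nontrivial E]
    (L : Submodule ℤ E) [DiscreteTopology L] [IsZLattice ℝ L] {X : Set E} {F : E → ℝ}
    (hX : ∀ ⦃x⦄ ⦃r : ℝ⦄, x ∈ X → 0 < r → r • x ∈ X)
    (h₁ : ∀ x ⦃r : ℝ⦄, 0 ≤ r → F (r • x) = r ^ Module.finrank ℝ E * (F x))
    (h₂ : Bornology.IsBounded {x ∈ X | F x ≤ 1}) (h₃ : MeasurableSet {x ∈ X | F x ≤ 1})
    (h₄ : ∃ C₀ : ℝ, ∀ ε : ℝ, 0 < ε → ε ≤ 1 →
        MeasureTheory.volume (Metric.thickening ε (frontier {x ∈ X | F x ≤ 1})) ≤
          ENNReal.ofReal (C₀ * ε)) :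
    ∃ C : ℝ, ∀ c : ℝ, 1 ≤ c →
      |(Nat.card ({x ∈ X | F x ≤ c} ∩ L : Set E) : ℝ) -
          c * (MeasureTheory.volume.real {x ∈ X | F x ≤ 1} / ZLattice.covolume L)|
        ≤ C * c ^ (1 - 1 / (Module.finrank ℝ E : ℝ)) := by
  obtain ⟨C, -, hC⟩ := CNT1_card_smul_sub_le (volume : Measure E) L h₂ h₃ h₄
  refine ⟨C, fun c hc ↦ ?_⟩
  have hd : 0 < finrank ℝ E := finrank_pos
  have hd' : (finrank ℝ E : ℝ) ≠ 0 := Nat.cast_ne_zero.mpr hd.ne'
  have hc0 : 0 ≤ c := zero_le_one.trans hc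
  set t : ℝ := c ^ ((finrank ℝ E : ℝ)⁻¹) with ht
  have ht1 : 1 ≤ t := Real.one_le_rpow hc (inv_nonneg.mpr (Nat.cast_nonneg _))
  have ht0 : 0 < t := lt_of_lt_of_le one_pos ht1
  have htd : t ^ finrank ℝ E = c := by
    rw [ht, ← Real.rpow_natCast, ← Real.rpow_mul hc0, inv_mul_cancel₀ hd', Real.rpow_one]
  have htd1 : t ^ (finrank ℝ E - 1) = c ^ (1 - 1 / (finrank ℝ E : ℝ)) := by
    rw [ht, ← Real.rpow_natCast, ← Real.rpow_mul hc0]
    congr 1
    rw [Nat.cast_sub hd, Nat.cast_one]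
    field_simp
  have hset : {x ∈ X | F x ≤ c} = t • {x ∈ X | F x ≤ 1} := by
    rw [CNT1_smul_setOf_le (finrank ℝ E) hX h₁ ht0, htd]
  have := hC t ht1
  rwa [← hset, htd, htd1] at this

/-- **A-CNT1, companion**: the `ε`-thickening of a Lipschitz image of the unit cube of dimension
`k = dim E - 1` has volume `O(ε)`. -/
theorem volume_thickening_lipschitz_image_le {k : ℕ} (hk : k + 1 = Module.finrank ℝ E)
    (φ : (Fin k → ℝ) → E) {K : NNReal} (hφ : LipschitzOnWith K φ (Set.Icc 0 1)) :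
    ∃ C₀ : ℝ, ∀ ε : ℝ, 0 < ε → ε ≤ 1 →
      MeasureTheory.volume (Metric.thickening ε (φ '' Set.Icc 0 1)) ≤ ENNReal.ofReal (C₀ * ε) :=
  (CNT1_coverable_image_Icc hφ).volume_thickening_le volume hk

/-- The thickening bound passes to subsets. -/
theorem CNT1_thickening_bound_mono (μ : Measure E) {S T : Set E} (hST : S ⊆ T)
    (h : ∃ C₀ : ℝ, ∀ ε : ℝ, 0 < ε → ε ≤ 1 → μ (thickening ε T) ≤ ENNReal.ofReal (C₀ * ε)) :
    ∃ C₀ : ℝ, ∀ ε : ℝ, 0 < ε → ε ≤ 1 → μ (thickening ε S) ≤ ENNReal.ofReal (C₀ * ε) := by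
  obtain ⟨C₀, hC₀⟩ := h
  exact ⟨C₀, fun ε hε hε1 ↦ (measure_mono (thickening_subset_of_subset ε hST)).trans
    (hC₀ ε hε hε1)⟩

/-- The thickening bound passes to finite unions. -/
theorem CNT1_thickening_bound_union (μ : Measure E) {S T : Set E}
    (hS : ∃ C₀ : ℝ, ∀ ε : ℝ, 0 < ε → ε ≤ 1 → μ (thickening ε S) ≤ ENNReal.ofReal (C₀ * ε))
    (hT : ∃ C₀ : ℝ, ∀ ε : ℝ, 0 < ε → ε ≤ 1 → μ (thickening ε T) ≤ ENNReal.ofReal (C₀ * ε)) :
    ∃ C₀ : ℝ, ∀ ε : ℝ, 0 < ε → ε ≤ 1 →
      μ (thickening ε (S ∪ T)) ≤ ENNReal.ofReal (C₀ * ε) := by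
  obtain ⟨C, hC⟩ := hS
  obtain ⟨D, hD⟩ := hT
  refine ⟨max C 0 + max D 0, fun ε hε hε1 ↦ ?_⟩
  rw [thickening_union]
  calc μ (thickening ε S ∪ thickening ε T) ≤ μ (thickening ε S) + μ (thickening ε T) :=
        measure_union_le _ _
    _ ≤ ENNReal.ofReal (max C 0 * ε) + ENNReal.ofReal (max D 0 * ε) := by
        gcongr
        · exact (hC ε hε hε1).trans (ENNReal.ofReal_le_ofReal
            (mul_le_mul_of_nonneg_right (le_max_left _ _) hε.le))
        · exact (hD ε hε hε1).trans (ENNReal.ofReal_le_ofReal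
            (mul_le_mul_of_nonneg_right (le_max_left _ _) hε.le))
    _ = ENNReal.ofReal ((max C 0 + max D 0) * ε) := by
        rw [← ENNReal.ofReal_add (by positivity) (by positivity), add_mul]

end final

end Fermat.Agent.S14
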