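import Mathlib

/-!
# P-CFT, module A-CNT1 (core): unit cubes with integral vertices

For a bounded measurable set `A ⊆ ι → ℝ`, the difference between the number of integer points
of `A` and the volume of `A` is bounded by the number of closed unit cubes (with integral
vertices) meeting the frontier of `A`.

Author: helper51.
-/

set_option autoImplicit false

open MeasureTheory Set Metric Bornology
open scoped Pointwise NNReal ENNReal

namespace Fermat.Agent.S14.ACount

noncomputable section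

variable {ι : Type*}

/-- The integer point with coordinates `ν`. -/
def intPt (ν : ι → ℤ) : ι → ℝ := fun i => (ν i : ℝ)

@[simp] lemma intPt_apply (ν : ι → ℤ) (i : ι) : intPt ν i = (ν i : ℝ) := rfl

lemma intPt_injective : Function.Injective (intPt : (ι → ℤ) → ι → ℝ) := by
  intro ν ν' h
  funext i
  have := congrFun h i
  simp only [intPt_apply] at this
  exact_mod_cast this

/-- The half-open unit cube with lower vertex `ν`. -/
def ucube (ν : ι → ℤ) : Set (ι → ℝ) := Set.pi univ fun i => Ico (ν i : ℝ) (ν i + 1)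

/-- The closed unit cube with lower vertex `ν`. -/
def ucubeC (ν : ι → ℤ) : Set (ι → ℝ) := Set.pi univ fun i => Icc (ν i : ℝ) (ν i + 1)

lemma mem_ucube {ν : ι → ℤ} {y : ι → ℝ} :
    y ∈ ucube ν ↔ ∀ i, (ν i : ℝ) ≤ y i ∧ y i < ν i + 1 := by
  simp only [ucube, Set.mem_pi, Set.mem_univ, Set.mem_Ico, forall_true_left]

lemma mem_ucubeC {ν : ι → ℤ} {y : ι → ℝ} :
    y ∈ ucubeC ν ↔ ∀ i, (ν i : ℝ) ≤ y i ∧ y i ≤ ν i + 1 := by
  simp only [ucubeC, Set.mem_pi, Set.mem_univ, Set.mem_Icc, forall_true_left]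

lemma ucube_subset_ucubeC (ν : ι → ℤ) : ucube ν ⊆ ucubeC ν := fun _ hy =>
  mem_ucubeC.2 fun i => ⟨(mem_ucube.1 hy i).1, (mem_ucube.1 hy i).2.le⟩

lemma intPt_mem_ucube (ν : ι → ℤ) : intPt ν ∈ ucube ν :=
  mem_ucube.2 fun i => ⟨le_rfl, by simp⟩

lemma mem_ucube_iff_floor {ν : ι → ℤ} {y : ι → ℝ} :
    y ∈ ucube ν ↔ ν = fun i => ⌊y i⌋ := by
  rw [mem_ucube]
  constructor
  · intro h
    funext i
    exact (Int.floor_eq_iff.2 (h i)).symm
  · rintro rfl i
    exact ⟨Int.floor_le _, Int.lt_floor_add_one _⟩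

lemma mem_ucube_floor (y : ι → ℝ) : y ∈ ucube (fun i => ⌊y i⌋) := mem_ucube_iff_floor.2 rfl

lemma ucube_disjoint {ν ν' : ι → ℤ} (h : ν ≠ ν') : Disjoint (ucube ν) (ucube ν') := by
  rw [Set.disjoint_left]
  intro y hy hy'
  exact h ((mem_ucube_iff_floor.1 hy).trans (mem_ucube_iff_floor.1 hy').symm)

lemma isPreconnected_ucubeC (ν : ι → ℤ) : IsPreconnected (ucubeC ν) := by
  have : Convex ℝ (ucubeC ν) := convex_pi fun i _ => convex_Icc _ _
  exact this.isPreconnected

/-- A closed unit cube which does not meet the frontier of `A` is contained in `A` or disjoint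
from `A`. -/
lemma ucubeC_subset_or_disjoint {A : Set (ι → ℝ)} {ν : ι → ℤ}
    (h : ¬ (ucubeC ν ∩ frontier A).Nonempty) : ucubeC ν ⊆ A ∨ Disjoint (ucubeC ν) A := by
  have hsub : ucubeC ν ⊆ interior A ∪ (closure A)ᶜ := by
    intro y hy
    by_cases hy1 : y ∈ interior A
    · exact Or.inl hy1
    · right
      intro hy2
      exact h ⟨y, hy, hy2, hy1⟩
  have hdisj : Disjoint (interior A) (closure A)ᶜ := by
    rw [Set.disjoint_left]
    intro y hy hy'
    exact hy' (subset_closure (interior_subset hy))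
  rcases (isPreconnected_ucubeC ν).subset_or_subset isOpen_interior
      isClosed_closure.isOpen_compl hdisj hsub with h1 | h1
  · exact Or.inl (h1.trans interior_subset)
  · right
    rw [Set.disjoint_left]
    intro y hy hyA
    exact h1 hy (subset_closure hyA)

variable [Fintype ι]

lemma measurableSet_ucube (ν : ι → ℤ) : MeasurableSet (ucube ν) :=
  MeasurableSet.univ_pi fun _ => measurableSet_Ico

lemma volume_ucube (ν : ι → ℤ) : volume (ucube ν) = 1 := by
  rw [ucube, Real.volume_pi_Ico]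
  simp

/-- The set of cubes meeting a bounded set is finite. -/
lemma finite_ucubeC_inter {T : Set (ι → ℝ)} (hT : IsBounded T) :
    {ν : ι → ℤ | (ucubeC ν ∩ T).Nonempty}.Finite := by
  classical
  obtain ⟨R, hR⟩ := hT.subset_closedBall (0 : ι → ℝ)
  refine (Finset.finite_toSet (Fintype.piFinset fun _ : ι =>
    Finset.Icc (-(⌈R⌉ + 1)) ⌈R⌉)).subset fun ν hν => ?_
  obtain ⟨y, hy, hyT⟩ := hν
  simp only [Finset.mem_coe, Fintype.mem_piFinset, Finset.mem_Icc]
  intro i
  have h1 := mem_ucubeC.1 hy i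
  have h2 : ‖y‖ ≤ R := by simpa using hR hyT
  have h3 : |y i| ≤ R := (norm_le_pi_norm y i).trans h2
  have h4 := abs_le.1 h3
  have hc := Int.le_ceil R
  constructor
  · have h5 : ((-(⌈R⌉ + 1) : ℤ) : ℝ) ≤ ν i := by
      push_cast
      linarith
    exact_mod_cast h5
  · have h5 : ((ν i : ℤ) : ℝ) ≤ (⌈R⌉ : ℤ) := by linarith
    exact_mod_cast h5

end

end Fermat.Agent.S14.ACount
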