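import Mathlib
import Fermat.Agent.S14.ACount.Ideals
import Fermat.Agent.S14.ACount.Lattice

/-!
# P-CFT, A-CNT3: `IfaceCnt` from the frontier estimate alone

A-CNT1 (`card_le_sub_le`) is landed, so `IfaceCnt` only depends on the statement of A-CNT2.
-/

set_option autoImplicit false

namespace Fermat.Agent.S14

/-- The landed A-CNT1 theorem proves the `Prop` consumed by A-CNT3. -/
theorem ACNT3_stmtCNT1 : ACNT3.StmtCNT1 :=
  fun L _ _ _ _ hX h₁ h₂ h₃ h₄ ↦ card_le_sub_le L hX h₁ h₂ h₃ h₄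

/-- `IfaceCnt` from the frontier estimate of A-CNT2 in the mixed space. -/
theorem ifaceCnt_of_frontier (h2 : ACNT3.StmtCNT2) : IfaceCnt :=
  ifaceCnt_of ACNT3_stmtCNT1 h2

/-- `IfaceCnt` from the frontier estimate of A-CNT2 in the euclidean model. -/
theorem ifaceCnt_of_frontier' (h2 : ACNT3.StmtCNT2Euclid) : IfaceCnt :=
  ifaceCnt_of' ACNT3_stmtCNT1 h2

end Fermat.Agent.S14
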