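import Fermat.Agent.S14.ACount.Cubes

/-!
# P-CFT, module A-CNT1 (core): counting integer points with an error term

* `abs_card_sub_volume_le`: for a bounded measurable `A ⊆ ι → ℝ`, the number of integer points
  of `A` differs from the volume of `A` by at most the number of closed unit cubes (integral
  vertices) meeting the frontier of `A`.
* `card_ucubeC_inter_le`: a set covered by `|P|` sup-norm balls of radius `R` meets at most
  `|P| (2R+2)^d` closed unit cubes.
* `exists_finset_cover_of_lipschitzOnWith`: a Lipschitz image of the `k`-dimensional unit cube is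
  covered by `n^k` balls of radius `K / n`.
* `exists_card_intPt_smul_sub_le`: if the frontier of `s` is covered by finitely many Lipschitz
  images of the `k`-cube then `#(ℤ^ι ∩ x • s) = vol(s) x^d + O(x^k)`.

Author: helper51.
-/

set_option autoImplicit false

open MeasureTheory Set Metric Bornology
open scoped Pointwise NNReal ENNReal

namespace Fermat.Agent.S14.ACount

noncomputable section

variable {ι : Type*} [Fintype ι]

lemma natCard_subtype_eq_card_filter {α : Type*} [DecidableEq α] (S : Finset α) (P : α → Prop)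
    [DecidablePred P] (h : ∀ a, P a → a ∈ S) :
    Nat.card {a : α // P a} = (S.filter P).card := by
  have : {a : α | P a} = ↑(S.filter P) := by
    ext a
    simp only [Set.mem_ofPred_eq, Finset.coe_filter]
    exact ⟨fun ha => ⟨h a ha, ha⟩, fun ha => ha.2⟩
  rw [← Set.ncard_coe_finset, ← this]
  exact Nat.card_coe_set_eq _

/-- **Counting versus volume.**  For a bounded measurable set, the number of integer points
differs from the volume by at most the number of closed unit cubes meeting the frontier. -/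
theorem abs_card_sub_volume_le {A : Set (ι → ℝ)} (hb : IsBounded A) (hm : MeasurableSet A) :
    |(Nat.card {ν : ι → ℤ // intPt ν ∈ A} : ℝ) - volume.real A| ≤
      Nat.card {ν : ι → ℤ // (ucubeC ν ∩ frontier A).Nonempty} := by
  classical
  have hfin := finite_ucubeC_inter (ι := ι) (isBounded_closure_of_isBounded hb)
  set S : Finset (ι → ℤ) := hfin.toFinset with hS
  have hSmem : ∀ ν, ν ∈ S ↔ (ucubeC ν ∩ closure A).Nonempty := fun ν => by
    simp [hS]
  have ha : ∀ ν, intPt ν ∈ A → ν ∈ S := fun ν h =>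
    (hSmem ν).2 ⟨intPt ν, ucube_subset_ucubeC ν (intPt_mem_ucube ν), subset_closure h⟩
  have hbd : ∀ ν, (ucubeC ν ∩ frontier A).Nonempty → ν ∈ S := fun ν ⟨y, hy, hyf⟩ =>
    (hSmem ν).2 ⟨y, hy, frontier_subset_closure hyf⟩
  have hc : ∀ y ∈ A, (fun i => ⌊y i⌋) ∈ S := fun y hy =>
    (hSmem _).2 ⟨y, ucube_subset_ucubeC _ (mem_ucube_floor y), subset_closure hy⟩
  -- the two cardinalities as cardinalities of filters
  rw [natCard_subtype_eq_card_filter S _ ha, natCard_subtype_eq_card_filter S _ hbd]
  -- the volume as a sum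
  have hAU : A = ⋃ ν ∈ S, A ∩ ucube ν := by
    ext y
    simp only [Set.mem_iUnion, Set.mem_inter_iff, exists_prop]
    constructor
    · intro hy
      exact ⟨_, hc y hy, hy, mem_ucube_floor y⟩
    · rintro ⟨ν, -, hy, -⟩
      exact hy
  have hvol : volume A = ∑ ν ∈ S, volume (A ∩ ucube ν) := by
    conv_lhs => rw [hAU]
    refine measure_biUnion_finset ?_ fun ν _ => hm.inter (measurableSet_ucube ν)
    intro ν _ ν' _ hne
    exact (ucube_disjoint hne).mono inter_subset_right inter_subset_right
  have hle1 : ∀ ν, volume (A ∩ ucube ν) ≤ 1 := fun ν =>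
    (measure_mono inter_subset_right).trans (volume_ucube ν).le
  have hvolr : volume.real A = ∑ ν ∈ S, volume.real (A ∩ ucube ν) := by
    simp only [measureReal_def]
    rw [hvol, ENNReal.toReal_sum]
    intro ν _
    exact ((hle1 ν).trans_lt ENNReal.one_lt_top).ne
  rw [hvolr, Finset.card_filter, Finset.card_filter]
  push_cast
  rw [← Finset.sum_sub_distrib]
  refine (Finset.abs_sum_le_sum_abs _ _).trans (Finset.sum_le_sum fun ν _ => ?_)
  have hr0 : 0 ≤ volume.real (A ∩ ucube ν) := measureReal_nonneg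
  have hr1 : volume.real (A ∩ ucube ν) ≤ 1 := by
    have := ENNReal.toReal_mono ENNReal.one_ne_top (hle1 ν)
    simpa [measureReal_def] using this
  by_cases hfr : (ucubeC ν ∩ frontier A).Nonempty
  · rw [if_pos hfr]
    by_cases hA : intPt ν ∈ A
    · rw [if_pos hA, abs_le]
      constructor <;> linarith
    · rw [if_neg hA, abs_le]
      constructor <;> linarith
  · rw [if_neg hfr]
    rcases ucubeC_subset_or_disjoint hfr with h | h
    · have hA : intPt ν ∈ A := h (ucube_subset_ucubeC ν (intPt_mem_ucube ν))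
      have : A ∩ ucube ν = ucube ν :=
        inter_eq_right.2 ((ucube_subset_ucubeC ν).trans h)
      rw [if_pos hA, this, measureReal_def, volume_ucube]
      simp
    · have hA : intPt ν ∉ A := fun hA =>
        Set.disjoint_left.1 h (ucube_subset_ucubeC ν (intPt_mem_ucube ν)) hA
      have : A ∩ ucube ν = ∅ := by
        rw [Set.eq_empty_iff_forall_notMem]
        rintro y ⟨hy, hy'⟩
        exact Set.disjoint_left.1 h (ucube_subset_ucubeC ν hy') hy
      rw [if_neg hA, this]
      simp

/-- **Cover count.**  If `T` is covered by closed balls of radius `R` (sup norm) centred at the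
points of a finite set `P`, then at most `|P| (2R+2)^d` closed unit cubes meet `T`. -/
theorem card_ucubeC_inter_le (P : Finset (ι → ℝ)) (R : ℕ) {T : Set (ι → ℝ)}
    (hT : T ⊆ ⋃ c ∈ P, closedBall c R) :
    Nat.card {ν : ι → ℤ // (ucubeC ν ∩ T).Nonempty} ≤ P.card * (2 * R + 2) ^ Fintype.card ι := by
  classical
  let F : Finset (ι → ℤ) := P.biUnion fun c => Fintype.piFinset fun i =>
    Finset.Icc (⌊c i⌋ - R - 1) (⌊c i⌋ + R)
  have hsub : {ν : ι → ℤ | (ucubeC ν ∩ T).Nonempty} ⊆ ↑F := by
    rintro ν ⟨y, hy, hyT⟩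
    obtain ⟨c, hc⟩ := Set.mem_iUnion.1 (hT hyT)
    obtain ⟨hcP, hyc⟩ := Set.mem_iUnion.1 hc
    simp only [F, Finset.coe_biUnion, Finset.mem_coe, Set.mem_iUnion, Fintype.mem_piFinset,
      Finset.mem_Icc, exists_prop]
    refine ⟨c, hcP, fun i => ?_⟩
    have h1 := mem_ucubeC.1 hy i
    have h2 : dist (y i) (c i) ≤ R :=
      (dist_pi_le_iff (Nat.cast_nonneg R)).1 (mem_closedBall.1 hyc) i
    rw [Real.dist_eq, abs_le] at h2
    have h3 := Int.floor_le (c i)
    have h4 := Int.lt_floor_add_one (c i)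
    constructor
    · have : ((⌊c i⌋ - R - 1 : ℤ) : ℝ) ≤ ν i := by
        push_cast
        linarith
      exact_mod_cast this
    · have : ((ν i : ℤ) : ℝ) < ((⌊c i⌋ + R + 1 : ℤ) : ℝ) := by
        push_cast
        linarith
      have := Int.cast_lt.1 this
      omega
  calc Nat.card {ν : ι → ℤ // (ucubeC ν ∩ T).Nonempty}
      = Set.ncard {ν : ι → ℤ | (ucubeC ν ∩ T).Nonempty} := Nat.card_coe_set_eq _
    _ ≤ Set.ncard (F : Set (ι → ℤ)) := Set.ncard_le_ncard hsub (Finset.finite_toSet F)
    _ = F.card := Set.ncard_coe_finset F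
    _ ≤ ∑ c ∈ P, (Fintype.piFinset fun i => Finset.Icc (⌊c i⌋ - R - 1) (⌊c i⌋ + R)).card :=
        Finset.card_biUnion_le
    _ = ∑ _c ∈ P, (2 * R + 2) ^ Fintype.card ι := by
        refine Finset.sum_congr rfl fun c _ => ?_
        rw [Fintype.card_piFinset]
        have : ∀ i : ι, (Finset.Icc (⌊c i⌋ - R - 1) (⌊c i⌋ + R)).card = 2 * R + 2 := by
          intro i
          rw [Int.card_Icc]
          omega
        simp [this]
    _ = P.card * (2 * R + 2) ^ Fintype.card ι := by
        rw [Finset.sum_const, smul_eq_mul]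

/-- **Lipschitz subdivision.**  The image of the unit cube of `Fin k → ℝ` under a map which is
`K`-Lipschitz on the cube is covered by `n ^ k` closed balls of radius `K / n`. -/
theorem exists_finset_cover_of_lipschitzOnWith {E : Type*} [PseudoMetricSpace E] {k : ℕ}
    {K : ℝ≥0} {φ : (Fin k → ℝ) → E} (hφ : LipschitzOnWith K φ (Icc 0 1)) {n : ℕ} (hn : 0 < n) :
    ∃ P : Finset E, P.card ≤ n ^ k ∧ φ '' Icc 0 1 ⊆ ⋃ c ∈ P, closedBall c (K / n) := by
  classical
  let g : (Fin k → ℕ) → (Fin k → ℝ) := fun t i => (t i : ℝ) / n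
  let P : Finset E := (Fintype.piFinset fun _ : Fin k => Finset.range n).image fun t => φ (g t)
  have hn' : (0 : ℝ) < n := Nat.cast_pos.2 hn
  refine ⟨P, ?_, ?_⟩
  · refine Finset.card_image_le.trans ?_
    rw [Fintype.card_piFinset]
    simp
  · rintro _ ⟨u, hu, rfl⟩
    rw [Set.mem_Icc, Pi.le_def, Pi.le_def] at hu
    let t : Fin k → ℕ := fun i => min ⌊(n : ℝ) * u i⌋₊ (n - 1)
    have htn : ∀ i, t i ∈ Finset.range n := fun i => by
      simp only [Finset.mem_range, t]
      omega
    have hmem : φ (g t) ∈ P := Finset.mem_image.2 ⟨t, Fintype.mem_piFinset.2 htn, rfl⟩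
    have hgt : g t ∈ Icc (0 : Fin k → ℝ) 1 := by
      rw [Set.mem_Icc, Pi.le_def, Pi.le_def]
      refine ⟨fun i => by positivity, fun i => ?_⟩
      simp only [g, Pi.one_apply]
      rw [div_le_one hn']
      have := Finset.mem_range.1 (htn i)
      exact_mod_cast this.le
    have hdist : dist u (g t) ≤ 1 / n := by
      rw [dist_pi_le_iff (by positivity)]
      intro i
      have hu0 : 0 ≤ u i := hu.1 i
      have hu1 : u i ≤ 1 := hu.2 i
      have hnu : 0 ≤ (n : ℝ) * u i := by positivity
      have hfl := Nat.floor_le hnu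
      have hfl' := Nat.lt_floor_add_one ((n : ℝ) * u i)
      have htle : ((t i : ℕ) : ℝ) ≤ n * u i := by
        have : t i ≤ ⌊(n : ℝ) * u i⌋₊ := min_le_left _ _
        exact (Nat.cast_le.2 this).trans hfl
      have htge : (n : ℝ) * u i - 1 ≤ t i := by
        simp only [t]
        rcases le_total ⌊(n : ℝ) * u i⌋₊ (n - 1) with h | h
        · rw [min_eq_left h]
          linarith
        · rw [min_eq_right h]
          have : ((n - 1 : ℕ) : ℝ) = (n : ℝ) - 1 := by
            rw [Nat.cast_sub hn]; simp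
          rw [this]
          nlinarith
      rw [Real.dist_eq, abs_le]
      simp only [g]
      constructor
      · have : (t i : ℝ) / n ≤ u i := by
          rw [div_le_iff₀ hn']
          linarith
        have h1 : (0:ℝ) ≤ 1 / n := by positivity
        linarith
      · have : u i - 1 / n ≤ (t i : ℝ) / n := by
          rw [le_div_iff₀ hn', sub_mul, one_div, inv_mul_cancel₀ hn'.ne']
          linarith
        linarith
    refine Set.mem_iUnion₂.2 ⟨φ (g t), hmem, ?_⟩
    rw [mem_closedBall]
    calc dist (φ u) (φ (g t)) ≤ K * dist u (g t) :=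
          hφ.dist_le_mul u (by rw [Set.mem_Icc, Pi.le_def, Pi.le_def]; exact hu) (g t) hgt
      _ ≤ K * (1 / n) := by gcongr
      _ = K / n := by ring

/-- `T` is covered by finitely many Lipschitz images of the unit cube of dimension `k`. -/
def LipCover {E : Type*} [PseudoMetricSpace E] (k : ℕ) (T : Set E) : Prop :=
  ∃ (m : ℕ) (K : ℝ≥0) (φ : Fin m → (Fin k → ℝ) → E),
    (∀ j, LipschitzOnWith K (φ j) (Icc 0 1)) ∧ T ⊆ ⋃ j, φ j '' Icc 0 1

/-- **A-CNT1, integer lattice form.**  If the frontier of the bounded measurable set `s` is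
covered by finitely many Lipschitz images of the `k`-dimensional unit cube, then the number of
integer points of `x • s` is `vol(s) x^d + O(x^k)` for `x ≥ 1`. -/
theorem exists_card_intPt_smul_sub_le {s : Set (ι → ℝ)} (hb : IsBounded s)
    (hm : MeasurableSet s) {k : ℕ} (hf : LipCover k (frontier s)) :
    ∃ C : ℝ, 0 ≤ C ∧ ∀ x : ℝ, 1 ≤ x →
      |(Nat.card {ν : ι → ℤ // intPt ν ∈ x • s} : ℝ) - volume.real s * x ^ Fintype.card ι|
        ≤ C * x ^ k := by
  classical
  obtain ⟨m, K, φ, hφ, hcov⟩ := hf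
  set R : ℕ := ⌈(K : ℝ)⌉₊ with hR
  have hKR : (K : ℝ) ≤ R := Nat.le_ceil _
  refine ⟨m * 2 ^ k * (2 * R + 2) ^ Fintype.card ι, by positivity, fun x hx => ?_⟩
  have hx0 : 0 < x := lt_of_lt_of_le one_pos hx
  set n : ℕ := ⌈x⌉₊ with hn
  have hn0 : 0 < n := Nat.ceil_pos.2 hx0
  have hxn : x ≤ n := Nat.le_ceil x
  have hn2 : (n : ℝ) ≤ 2 * x := by
    have := Nat.ceil_lt_add_one hx0.le
    linarith
  -- covers of the scaled pieces
  have hψ : ∀ j, LipschitzOnWith (x.toNNReal * K) (fun u => x • φ j u) (Icc 0 1) := by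
    intro j
    have h1 : LipschitzWith x.toNNReal (fun v : ι → ℝ => x • v) := by
      have := lipschitzWith_smul (β := ι → ℝ) x
      have hnn : ‖x‖₊ = x.toNNReal := by
        ext
        simp [Real.coe_toNNReal x hx0.le, abs_of_pos hx0]
      rwa [hnn] at this
    exact h1.comp_lipschitzOnWith (hφ j)
  choose P hPcard hPcov using fun j => exists_finset_cover_of_lipschitzOnWith (hψ j) hn0
  let Q : Finset (ι → ℝ) := Finset.univ.biUnion P
  have hQcard : Q.card ≤ m * n ^ k := by
    refine Finset.card_biUnion_le.trans ?_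
    calc ∑ j : Fin m, (P j).card ≤ ∑ _j : Fin m, n ^ k := Finset.sum_le_sum fun j _ => hPcard j
      _ = m * n ^ k := by simp
  have hrad : ((x.toNNReal * K : ℝ≥0) : ℝ) / n ≤ R := by
    rw [NNReal.coe_mul, Real.coe_toNNReal x hx0.le, div_le_iff₀ (Nat.cast_pos.2 hn0)]
    calc x * K ≤ n * R := by gcongr
      _ = R * n := mul_comm _ _
  have hfr : frontier (x • s) ⊆ ⋃ c ∈ Q, closedBall c R := by
    have h1 : frontier (x • s) = x • frontier s := by
      have := (Homeomorph.smulOfNeZero x hx0.ne').image_frontier (s := s)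
      simpa [Set.image_smul] using this.symm
    rw [h1]
    rintro _ ⟨y, hy, rfl⟩
    obtain ⟨j, u, hu, rfl⟩ := Set.mem_iUnion.1 (hcov hy)
    have := hPcov j ⟨u, hu, rfl⟩
    obtain ⟨c, hc, hyc⟩ := Set.mem_iUnion₂.1 this
    refine Set.mem_iUnion₂.2 ⟨c, Finset.mem_biUnion.2 ⟨j, Finset.mem_univ j, hc⟩, ?_⟩
    exact closedBall_subset_closedBall hrad hyc
  have hbA : IsBounded (x • s) := hb.smul₀ x
  have hmA : MeasurableSet (x • s) := hm.const_smul₀ x
  have hvol : volume.real (x • s) = volume.real s * x ^ Fintype.card ι := by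
    simp only [measureReal_def]
    rw [Measure.addHaar_smul, ENNReal.toReal_mul, Module.finrank_fintype_fun_eq_card,
      abs_of_pos (pow_pos hx0 _), ENNReal.toReal_ofReal (pow_pos hx0 _).le, mul_comm]
  have h1 := abs_card_sub_volume_le hbA hmA
  have h2 := card_ucubeC_inter_le Q R hfr
  rw [hvol] at h1
  refine h1.trans ?_
  calc (Nat.card {ν : ι → ℤ // (ucubeC ν ∩ frontier (x • s)).Nonempty} : ℝ)
      ≤ ((Q.card * (2 * R + 2) ^ Fintype.card ι : ℕ) : ℝ) := Nat.cast_le.2 h2
    _ ≤ ((m * n ^ k * (2 * R + 2) ^ Fintype.card ι : ℕ) : ℝ) := by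
        exact Nat.cast_le.2 (Nat.mul_le_mul_right _ hQcard)
    _ = m * (n : ℝ) ^ k * (2 * R + 2) ^ Fintype.card ι := by push_cast; ring
    _ ≤ m * (2 * x) ^ k * (2 * R + 2) ^ Fintype.card ι := by gcongr
    _ = m * 2 ^ k * (2 * R + 2) ^ Fintype.card ι * x ^ k := by rw [mul_pow]; ring

end

end Fermat.Agent.S14.ACount
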