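import Mathlib

/-!
# P-CFT / A-CNT2 (a): thickening of a Lipschitz image of a cube

In a finite dimensional real normed space `E` of dimension `k + 1` with a Haar measure `μ`, the
`ε`-thickening of the image of the unit cube `[0,1]^k` under a Lipschitz map has measure `O(ε)`.
No inner product is needed.
-/

set_option autoImplicit false

open MeasureTheory Metric Set

namespace Fermat.Agent.S14

section Thick

open scoped Classical

variable {J : Type*} [Fintype J]

/-- the grid point attached to `a : J → ℕ`, mesh `1/n`. -/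
noncomputable def ACNT2_grid (n : ℕ) (a : J → ℕ) : J → ℝ := fun j => (a j : ℝ) / n

/-- every point of the unit cube is at distance `≤ 1/n` from a grid point lying in the cube. -/
theorem ACNT2_exists_grid {n : ℕ} (hn : 0 < n) {x : J → ℝ} (hx : x ∈ Icc (0 : J → ℝ) 1) :
    ∃ a ∈ Fintype.piFinset (fun _ : J => Finset.range (n + 1)),
      ACNT2_grid n a ∈ Icc (0 : J → ℝ) 1 ∧ dist x (ACNT2_grid n a) ≤ 1 / n := by
  have hn' : (0 : ℝ) < n := by exact_mod_cast hn
  have hx0 : ∀ j, 0 ≤ x j := fun j => hx.1 j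
  have hx1 : ∀ j, x j ≤ 1 := fun j => hx.2 j
  refine ⟨fun j => ⌊(n : ℝ) * x j⌋₊, ?_, ⟨fun j => ?_, fun j => ?_⟩, ?_⟩
  · rw [Fintype.mem_piFinset]
    intro j
    rw [Finset.mem_range, Nat.lt_succ_iff]
    have h1 : (n : ℝ) * x j ≤ n := by nlinarith [hx1 j]
    exact Nat.floor_le_of_le h1
  · simp only [ACNT2_grid, Pi.zero_apply]
    positivity
  · simp only [ACNT2_grid, Pi.one_apply]
    rw [div_le_one hn']
    have h1 : (n : ℝ) * x j ≤ n := by nlinarith [hx1 j]
    exact (Nat.floor_le (by nlinarith [hx0 j])).trans h1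
  · rw [dist_pi_le_iff (by positivity)]
    intro j
    simp only [ACNT2_grid]
    have h0 : 0 ≤ (n : ℝ) * x j := by nlinarith [hx0 j]
    have h1 : (⌊(n : ℝ) * x j⌋₊ : ℝ) ≤ n * x j := Nat.floor_le h0
    have h2 : (n : ℝ) * x j < ⌊(n : ℝ) * x j⌋₊ + 1 := Nat.lt_floor_add_one _
    have h3 : x j - (⌊(n : ℝ) * x j⌋₊ : ℝ) / n = ((n : ℝ) * x j - ⌊(n : ℝ) * x j⌋₊) / n := by
      field_simp
    rw [Real.dist_eq, h3, abs_div, abs_of_pos hn', div_le_div_iff_of_pos_right hn', abs_le]
    constructor <;> linarith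

variable {E : Type*} [NormedAddCommGroup E]

/-- the thickening of a Lipschitz image of the cube is covered by balls around the images of the
grid points. -/
theorem ACNT2_thickening_subset {φ : (J → ℝ) → E} {L : NNReal}
    (hφ : LipschitzOnWith L φ (Icc 0 1)) {n : ℕ} (hn : 0 < n) {ε : ℝ} (hε : 1 / (n : ℝ) ≤ ε) :
    thickening ε (φ '' Icc 0 1) ⊆
      ⋃ a ∈ Fintype.piFinset (fun _ : J => Finset.range (n + 1)),
        ball (φ (ACNT2_grid n a)) (((L : ℝ) + 1) * ε) := by
  intro y hy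
  rw [mem_thickening_iff] at hy
  obtain ⟨_, ⟨x, hx, rfl⟩, hyx⟩ := hy
  obtain ⟨a, ha, hga, hd⟩ := ACNT2_exists_grid hn hx
  simp only [mem_iUnion, mem_ball, exists_prop]
  refine ⟨a, ha, ?_⟩
  have h1 : dist (φ x) (φ (ACNT2_grid n a)) ≤ L * dist x (ACNT2_grid n a) :=
    hφ.dist_le_mul x hx _ hga
  have h2 : (L : ℝ) * dist x (ACNT2_grid n a) ≤ L * ε :=
    mul_le_mul_of_nonneg_left (hd.trans hε) L.coe_nonneg
  calc dist y (φ (ACNT2_grid n a)) ≤ dist y (φ x) + dist (φ x) (φ (ACNT2_grid n a)) :=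
        dist_triangle _ _ _
    _ < ε + L * ε := add_lt_add_of_lt_of_le hyx (h1.trans h2)
    _ = ((L : ℝ) + 1) * ε := by ring

variable [NormedSpace ℝ E] [FiniteDimensional ℝ E] [MeasurableSpace E] [BorelSpace E]

/-- **Thick lemma.**  The `ε`-thickening of a Lipschitz image of the unit cube of dimension
`dim E - 1` has measure `O(ε)`. -/
theorem ACNT2_thick (μ : Measure E) [μ.IsAddHaarMeasure]
    (hJ : Fintype.card J + 1 = Module.finrank ℝ E) (φ : (J → ℝ) → E) {L : NNReal}
    (hφ : LipschitzOnWith L φ (Icc 0 1)) :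
    ∃ C₀ : ℝ, ∀ ε : ℝ, 0 < ε → ε ≤ 1 →
      μ (thickening ε (φ '' Icc 0 1)) ≤ ENNReal.ofReal (C₀ * ε) := by
  set k := Fintype.card J with hk
  set B : ℝ := (μ (ball (0 : E) 1)).toReal with hB
  have hBfin : μ (ball (0 : E) 1) ≠ ⊤ := measure_ball_lt_top.ne
  have hB0 : 0 ≤ B := ENNReal.toReal_nonneg
  refine ⟨3 ^ k * ((L : ℝ) + 1) ^ (k + 1) * B, fun ε hε hε1 => ?_⟩
  set n : ℕ := ⌈1 / ε⌉₊ with hn
  have hn0 : 0 < n := Nat.ceil_pos.mpr (by positivity)
  have hn' : (0 : ℝ) < n := by exact_mod_cast hn0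
  have h1n : 1 / (n : ℝ) ≤ ε := by
    rw [div_le_iff₀ hn']
    have : 1 / ε ≤ n := Nat.le_ceil _
    rw [div_le_iff₀ hε] at this
    linarith
  have hnle : (n : ℝ) + 1 ≤ 3 / ε := by
    have h1 : (n : ℝ) < 1 / ε + 1 := Nat.ceil_lt_add_one (by positivity)
    have h2 : (1 : ℝ) ≤ 1 / ε := by rw [le_div_iff₀ hε]; linarith
    have h3 : 3 / ε = 1 / ε + 1 / ε + 1 / ε := by ring
    linarith
  have hr : 0 < ((L : ℝ) + 1) * ε := by positivity
  have : Nontrivial E := Module.nontrivial_of_finrank_pos (R := ℝ) (by omega)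
  calc μ (thickening ε (φ '' Icc 0 1))
      ≤ μ (⋃ a ∈ Fintype.piFinset (fun _ : J => Finset.range (n + 1)),
          ball (φ (ACNT2_grid n a)) (((L : ℝ) + 1) * ε)) :=
        measure_mono (ACNT2_thickening_subset hφ hn0 h1n)
    _ ≤ ∑ a ∈ Fintype.piFinset (fun _ : J => Finset.range (n + 1)),
          μ (ball (φ (ACNT2_grid n a)) (((L : ℝ) + 1) * ε)) :=
        measure_biUnion_finset_le _ _
    _ = ∑ _a ∈ Fintype.piFinset (fun _ : J => Finset.range (n + 1)),
          ENNReal.ofReal ((((L : ℝ) + 1) * ε) ^ (k + 1)) * μ (ball (0 : E) 1) := by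
        refine Finset.sum_congr rfl fun a _ => ?_
        rw [Measure.addHaar_ball μ _ hr.le, ← hJ]
    _ = ENNReal.ofReal (((n : ℝ) + 1) ^ k * ((((L : ℝ) + 1) * ε) ^ (k + 1) * B)) := by
        rw [Finset.sum_const, Fintype.card_piFinset, Finset.prod_const, Finset.card_range,
          Finset.card_univ, nsmul_eq_mul, ENNReal.ofReal_mul (by positivity),
          ENNReal.ofReal_mul (by positivity), hB, ENNReal.ofReal_toReal hBfin,
          ENNReal.ofReal_pow (by positivity)]
        congr 2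
        push_cast
        rw [ENNReal.ofReal_pow (by positivity), ENNReal.ofReal_add (by positivity) zero_le_one,
          ENNReal.ofReal_natCast, ENNReal.ofReal_one]
    _ ≤ ENNReal.ofReal (3 ^ k * ((L : ℝ) + 1) ^ (k + 1) * B * ε) := by
        apply ENNReal.ofReal_le_ofReal
        have h3 : ((n : ℝ) + 1) ^ k ≤ (3 / ε) ^ k := pow_le_pow_left₀ (by positivity) hnle k
        have h4 : (3 / ε) ^ k * ((((L : ℝ) + 1) * ε) ^ (k + 1) * B)
            = 3 ^ k * ((L : ℝ) + 1) ^ (k + 1) * B * ε := by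
          rw [div_pow, mul_pow, pow_succ ε k]
          field_simp
        rw [← h4]
        exact mul_le_mul_of_nonneg_right h3 (by positivity)

end Thick

end Fermat.Agent.S14
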